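import Fermat.Agent.GAL.KN.Defs
import Fermat.Agent.GAL.KL.Basic

/-!
# GAL / KN : the lattice `J_c`
-/

set_option autoImplicit false

namespace Fermat.Agent.GAL.KN

open Polynomial Fermat.Agent.GAL.KL

variable {L F Γ₀ : Type*} [Field L] [Field F] [Algebra L F] [LinearOrderedCommGroupWithZero Γ₀]
  {v : Valuation F Γ₀} {t : F} {n : ℕ} {e : Fin n → F} {M : Fin n → Matrix (Fin n) (Fin n) L[X]}

/-! ### N8 : the lattice `J_c = {z ∈ R | Tr(z R) ⊆ (π)}` -/

/-- `J_c`. -/
def JJ (t : F) (e : Fin n → F) (M : Fin n → Matrix (Fin n) (Fin n) L[X]) (c : L) : Set F :=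
  {z | ∃ x : Fin n → L[X], z = comb L t x e ∧ ∀ i, ((gram M).mulVec x i).eval c = 0}

/-- the coordinates of `J_c`. -/
def jjSub (G : Matrix (Fin n) (Fin n) L[X]) (c : L) : Submodule L[X] (Fin n → L[X]) where
  carrier := {x | ∀ i, (G.mulVec x i).eval c = 0}
  add_mem' := by
    intro x y hx hy i
    rw [Matrix.mulVec_add, Pi.add_apply, eval_add, hx i, hy i, add_zero]
  zero_mem' := by
    intro i
    rw [Matrix.mulVec_zero, Pi.zero_apply, eval_zero]
  smul_mem' := by
    intro g x hx i
    rw [Matrix.mulVec_smul, Pi.smul_apply, smul_eq_mul, eval_mul, hx i, mul_zero]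

theorem mem_jjSub {G : Matrix (Fin n) (Fin n) L[X]} {c : L} {x : Fin n → L[X]} :
    x ∈ jjSub G c ↔ ∀ i, (G.mulVec x i).eval c = 0 := Iff.rfl

/-- a submodule of `L[X]^n` containing `(X - c) L[X]^n` is free of rank `n`. -/
theorem jj_exists_basis (N : Submodule L[X] (Fin n → L[X])) (g : L[X]) (hg : g ≠ 0)
    (hN : ∀ x : Fin n → L[X], g • x ∈ N) : Nonempty (Module.Basis (Fin n) L[X] N) := by
  have hfin : Module.Finite L[X] N := inferInstance
  have hfree : Module.Free L[X] N := inferInstance
  let f : (Fin n → L[X]) →ₗ[L[X]] N :=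
    (LinearMap.lsmul L[X] (Fin n → L[X]) g).codRestrict N hN
  have hfi : Function.Injective f := by
    intro x y hxy
    have h3 : g • x = g • y := congrArg Subtype.val hxy
    exact smul_right_injective _ hg h3
  have h0 : Module.finrank L[X] (Fin n → L[X]) = n := by simp
  have h1 : Module.finrank L[X] N ≤ Module.finrank L[X] (Fin n → L[X]) :=
    LinearMap.finrank_le_finrank_of_injective N.injective_subtype
  have h2 : Module.finrank L[X] (Fin n → L[X]) ≤ Module.finrank L[X] N :=
    LinearMap.finrank_le_finrank_of_injective hfi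
  have hr : Module.finrank L[X] N = n := by omega
  exact ⟨Module.finBasisOfFinrankEq L[X] N hr⟩

theorem jj_comb_sum (p : Fin n → L[X]) (y : Fin n → Fin n → L[X]) (e : Fin n → F) :
    comb L t p (fun j => comb L t (y j) e) = comb L t (∑ j, p j • y j) e := by
  have h := comb_comb (t := t) p (Matrix.of y) e
  rw [show (fun i => comb L t (Matrix.of y i) e) = fun j => comb L t (y j) e from rfl] at h
  rw [h]
  congr 1
  funext i
  simp [Matrix.vecMul, dotProduct, Finset.sum_apply]

/-- `J_c` is free of rank `n` (a submodule of `L[X]^n` containing `(X - c) L[X]^n`; `L[X]` is a PID;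
compare `KL/LatticeFree.lean`, `exists_basis_II_aux`). -/
theorem exists_basis_JJ (O : IsOrder L t e M) (c : L) :
    ∃ ε : Fin n → F, IsBasis L t ε (JJ t e M c) := by
  obtain ⟨b⟩ := jj_exists_basis (jjSub (gram M) c) (X - C c) (X_sub_C_ne_zero c) (by
    intro x i
    rw [Matrix.mulVec_smul, Pi.smul_apply, smul_eq_mul, eval_mul, eval_sub, eval_X, eval_C,
      sub_self, zero_mul])
  refine ⟨fun j => comb L t (b j : Fin n → L[X]) e, ?_, ?_⟩
  · intro p hp
    rw [jj_comb_sum] at hp
    have h1 := O.ind _ hp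
    have h2 : ∑ j, p j • b j = 0 := by
      apply Subtype.ext
      rw [Submodule.coe_sum, Submodule.coe_zero]
      simpa only [Submodule.coe_smul] using h1
    exact funext ((Fintype.linearIndependent_iff.1 b.linearIndependent) p h2)
  · intro x
    constructor
    · rintro ⟨y, rfl, hy⟩
      refine ⟨fun j => b.repr ⟨y, hy⟩ j, ?_⟩
      rw [jj_comb_sum]
      have h1 : ((∑ j, b.repr ⟨y, hy⟩ j • b j : jjSub (gram M) c) : Fin n → L[X]) = y :=
        congrArg Subtype.val (b.sum_repr ⟨y, hy⟩)
      rw [Submodule.coe_sum] at h1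
      simp only [Submodule.coe_smul] at h1
      rw [h1]
    · rintro ⟨p, rfl⟩
      rw [jj_comb_sum]
      refine ⟨_, rfl, ?_⟩
      exact (jjSub (gram M) c).sum_mem fun j _ => (jjSub (gram M) c).smul_mem _ (b j).2

end Fermat.Agent.GAL.KN
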