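import Fermat.Agent.GAL.KN.Core
import Fermat.Agent.GAL.KN.JJ
import Fermat.Agent.GAL.KL.ONBasis
import Fermat.Agent.GAL.KL.NearOneAux

/-!
# GAL / KN : char 0: the certificate over `L`
-/

set_option autoImplicit false

namespace Fermat.Agent.GAL.KN

open Polynomial Fermat.Agent.GAL.KL

variable {L F Γ₀ : Type*} [Field L] [Field F] [Algebra L F] [LinearOrderedCommGroupWithZero Γ₀]
  {v : Valuation F Γ₀} {t : F} {n : ℕ} {e : Fin n → F} {M : Fin n → Matrix (Fin n) (Fin n) L[X]}

/-- coordinates with respect to an independent family are unique. -/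
theorem certL_comb_inj {ε : Fin n → F} (h : ∀ p : Fin n → L[X], comb L t p ε = 0 → p = 0)
    {p p' : Fin n → L[X]} (hp : comb L t p ε = comb L t p' ε) : p = p' := by
  have h1 : comb L t (p - p') ε = 0 := by
    have : comb L t (p - p') ε = comb L t p ε - comb L t p' ε := by
      simp only [comb, Pi.sub_apply, map_sub, sub_mul, Finset.sum_sub_distrib]
    rw [this, hp, sub_self]
  exact sub_eq_zero.1 (h _ h1)

/-- `v (t - c) = 1` for the Gauss valuation, `v c ≤ 1`. -/
theorem certL_v_pi (hG : Gauss L v t) (c : L) (hc : v (algebraMap L F c) ≤ 1) :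
    v (aeval t (X - C c : L[X])) = 1 := by
  apply le_antisymm
  · rw [hG]
    intro i
    rw [coeff_sub, map_sub]
    refine (Valuation.map_sub v _ _).trans (max_le ?_ ?_)
    · rw [coeff_X]
      split_ifs <;> simp
    · rw [coeff_C]
      split_ifs
      · exact hc
      · simp
  · have h := (hG (X - C c) (v (aeval t (X - C c : L[X])))).1 le_rfl 1
    simpa [coeff_X, coeff_C] using h

/-! ### N10 : the certificate over `L`

PROOF.  `π = X - C c`.  Let `a` be a basis of `J = JJ t e M c` (`exists_basis_JJ`), `ε` an orthonormal basis of `J`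
(`KL.exists_ON_basis hG e hON hsp J a`).  `ε_j ∈ J ⊆ R`: `ε_j = comb (Q j) e` with `G *ᵥ (Q j) ≡ 0 mod π`: this is
`gram M * Qᵀ = π • G₂`.  Nilpotency: `rad`.
`det G₂ (c) ≠ 0`: let `G₂(c) ω = 0`, `ω : Fin n → L`.  Then `G *ᵥ (Qᵀ *ᵥ C∘ω) = π • (G₂ *ᵥ C∘ω) ≡ 0 mod π²`, so by `core`
`Qᵀ *ᵥ C∘ω = π • x'`; `z' = comb x' e` lies in `J` (as `G *ᵥ x' = G₂ *ᵥ C∘ω ≡ 0 mod π`), so `z' = comb y ε`, and
`∑ ω_j ε_j = π z' = comb (π • y) ε`; by independence `C ω_j = π y_j`, so `ω = 0`.
`det Q`: `π e_i ∈ J` so `π e_i = comb (Q' i) ε`, `Q' * Q = π • 1`, `det Q' * det Q = π ^ n`, hence (`π` prime) `det Q = C u * π ^ r`,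
`det Q' = C u⁻¹ * π^(n-r)`.  As `e`, `ε` are orthonormal and `v (π(t)) = 1`, all entries of `Q(t)`, `Q'(t)` have `v ≤ 1`, so
`v (det Q (t)) ≤ 1`, `v (det Q' (t)) ≤ 1` (`KL.v_det_le_one`), and their product has `v = 1`: `v u = 1`. -/
theorem exists_certL [IsAlgClosed L] [CharZero L] (hG : Gauss L v t) (O : IsOrder L t e M)
    (he : IsBasis L t e (BB L t)) (hON : ON L v t e) (hsp : Spans L t e) (c : L)
    (hc : v (algebraMap L F c) ≤ 1) :
    ∃ (Q G₂ : Matrix (Fin n) (Fin n) L[X]) (u : L) (r : ℕ),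
      ON L v t (fun j => comb L t (Q j) e) ∧
      gram M * Q.transpose = (X - C c) • G₂ ∧ (G₂.det).eval c ≠ 0 ∧
      Q.det = C u * (X - C c) ^ r ∧ v (algebraMap L F u) = 1 ∧
      ∀ j, ∃ p : Fin n → L[X], (comb L t (Q j) e) ^ n = (t - algebraMap L F c) * comb L t p e := by
  classical
  obtain ⟨a, ha⟩ := exists_basis_JJ O c
  obtain ⟨ε, hε, hεON⟩ := KL.exists_ON_basis hG e hON hsp (JJ t e M c) a ha
  have hπ0 : (X - C c : L[X]) ≠ 0 := X_sub_C_ne_zero c
  have hvπ := certL_v_pi hG c hc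
  -- the matrix `Q`
  have hεJ : ∀ j, ε j ∈ JJ t e M c := fun j =>
    (hε.2 (ε j)).2 ⟨Pi.single j 1, by rw [comb_single, map_one, one_mul]⟩
  choose Q hQε hQ0 using hεJ
  have hεQ : (fun j => comb L t (Q j) e) = ε := funext fun j => (hQε j).symm
  -- the matrix `G₂`
  have hdiv : ∀ i j, ∃ g, (gram M).mulVec (Q j) i = (X - C c) * g := fun i j =>
    dvd_iff_isRoot.2 (hQ0 j i)
  choose G₂ hG₂ using hdiv
  have hGQ : gram M * (Matrix.of Q).transpose = (X - C c) • Matrix.of G₂ := by
    ext i j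
    rw [Matrix.smul_apply, Matrix.of_apply, smul_eq_mul, ← hG₂ i j, Matrix.mul_apply]
    rfl
  have hGv : ∀ w : Fin n → L[X], (gram M).mulVec (Matrix.vecMul w (Matrix.of Q))
      = (X - C c) • (Matrix.of G₂).mulVec w := by
    intro w
    rw [← Matrix.mulVec_transpose, Matrix.mulVec_mulVec, hGQ, Matrix.smul_mulVec]
  have hcc : ∀ w : Fin n → L[X], comb L t w ε = comb L t (Matrix.vecMul w (Matrix.of Q)) e := by
    intro w
    rw [← comb_comb]
    congr 1
    exact hεQ.symm
  -- the matrix `Q'`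
  have hπJ : ∀ i, aeval t (X - C c : L[X]) * e i ∈ JJ t e M c := by
    intro i
    refine ⟨Pi.single i (X - C c), (comb_single e i _).symm, fun k => ?_⟩
    have : (gram M).mulVec (Pi.single i (X - C c)) k = gram M k i * (X - C c) := by
      simp [Matrix.mulVec, dotProduct, Pi.single_apply]
    rw [this]
    simp
  have hπJ' : ∀ i, ∃ p : Fin n → L[X], aeval t (X - C c : L[X]) * e i = comb L t p ε :=
    fun i => (hε.2 _).1 (hπJ i)
  choose Q' hQ' using hπJ'
  have hQQ : Matrix.of Q' * Matrix.of Q = (X - C c) • (1 : Matrix (Fin n) (Fin n) L[X]) := by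
    ext i j
    have h1 : Matrix.vecMul (Q' i) (Matrix.of Q) = Pi.single i (X - C c) := by
      apply certL_comb_inj O.ind
      rw [← hcc, ← hQ', comb_single]
    have h2 : (Matrix.of Q' * Matrix.of Q) i = Matrix.vecMul (Q' i) (Matrix.of Q) :=
      Matrix.mul_apply_eq_vecMul _ _ _
    rw [h2, h1, Matrix.smul_apply, Matrix.one_apply, Pi.single_apply, smul_eq_mul]
    by_cases hij : i = j
    · subst hij; simp
    · rw [if_neg (Ne.symm hij), if_neg hij, mul_zero]
  have hdet : (Matrix.of Q').det * (Matrix.of Q).det = (X - C c) ^ n := by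
    rw [← Matrix.det_mul, hQQ, Matrix.det_smul, Matrix.det_one, mul_one, Fintype.card_fin]
  obtain ⟨r, -, hr⟩ := (dvd_prime_pow (prime_X_sub_C c) n).1 (Dvd.intro_left _ hdet)
  obtain ⟨w, hw⟩ := hr.symm
  obtain ⟨u, -, hu⟩ := Polynomial.isUnit_iff.1 w.isUnit
  have hdetQ : (Matrix.of Q).det = C u * (X - C c) ^ r := by
    rw [← hw, ← hu, mul_comm]
  -- valuations
  have hQle : ∀ j l, v (aeval t (Q j l)) ≤ 1 := by
    intro j l
    refine (hON (Q j) 1).1 ?_ l
    rw [← hQε, hεON.v_eq_one]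
  have hQ'le : ∀ i j, v (aeval t (Q' i j)) ≤ 1 := by
    intro i j
    refine (hεON (Q' i) 1).1 ?_ j
    rw [← hQ', map_mul, hvπ, hON.v_eq_one, one_mul]
  have hd1 : v (aeval t (Matrix.of Q).det) ≤ 1 := by
    rw [AlgHom.map_det]
    exact KL.NearOne.v_det_le_one _ fun i j => hQle i j
  have hd2 : v (aeval t (Matrix.of Q').det) ≤ 1 := by
    rw [AlgHom.map_det]
    exact KL.NearOne.v_det_le_one _ fun i j => hQ'le i j
  have hd3 : v (aeval t (Matrix.of Q').det) * v (aeval t (Matrix.of Q).det) = 1 := by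
    rw [← map_mul, ← map_mul, hdet, map_pow, map_pow, hvπ, one_pow]
  have hd4 : v (aeval t (Matrix.of Q).det) = 1 := by
    apply le_antisymm hd1
    calc (1 : Γ₀) = v (aeval t (Matrix.of Q').det) * v (aeval t (Matrix.of Q).det) := hd3.symm
      _ ≤ 1 * v (aeval t (Matrix.of Q).det) := mul_le_mul' hd2 le_rfl
      _ = v (aeval t (Matrix.of Q).det) := one_mul _
  have hvu : v (algebraMap L F u) = 1 := by
    rw [hdetQ, map_mul, map_mul, map_pow, map_pow, hvπ, one_pow, mul_one, aeval_C] at hd4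
    exact hd4
  refine ⟨Matrix.of Q, Matrix.of G₂, u, r, ?_, hGQ, ?_, hdetQ, hvu, fun j => rad O c (Q j) (hQ0 j)⟩
  · show ON L v t (fun j => comb L t (Q j) e)
    rw [hεQ]
    exact hεON
  · -- `det G₂ (c) ≠ 0`
    intro h0
    have h1 : ((Matrix.of G₂).map (eval c)).det = 0 := by
      have := RingHom.map_det (evalRingHom c) (Matrix.of G₂)
      rw [coe_evalRingHom, h0] at this
      exact this.symm
    obtain ⟨ω, hω0, hω⟩ := Matrix.exists_mulVec_eq_zero_iff.2 h1
    apply hω0
    set w : Fin n → L[X] := fun j => C (ω j) with hw'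
    have h2 : ∀ i, ((Matrix.of G₂).mulVec w i).eval c = 0 := by
      intro i
      have := congrFun hω i
      simp only [Matrix.mulVec, dotProduct, Matrix.map_apply, Pi.zero_apply] at this
      simp only [Matrix.mulVec, dotProduct, eval_finsetSum, eval_mul, hw', eval_C]
      exact this
    have h3 : ∀ i, (X - C c) ^ 2 ∣ (gram M).mulVec (Matrix.vecMul w (Matrix.of Q)) i := by
      intro i
      obtain ⟨g, hg⟩ := dvd_iff_isRoot.2 (h2 i)
      rw [hGv, Pi.smul_apply, hg, smul_eq_mul, ← mul_assoc, ← sq]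
      exact Dvd.intro _ rfl
    have h4 := core O he hsp c _ h3
    choose x' hx' using h4
    have h5 : (gram M).mulVec x' = (Matrix.of G₂).mulVec w := by
      have h6 : Matrix.vecMul w (Matrix.of Q) = (X - C c) • x' := funext hx'
      have h7 := hGv w
      rw [h6, Matrix.mulVec_smul] at h7
      funext i
      have := congrFun h7 i
      rw [Pi.smul_apply, Pi.smul_apply, smul_eq_mul, smul_eq_mul] at this
      exact mul_left_cancel₀ hπ0 this
    have h8 : comb L t x' e ∈ JJ t e M c := ⟨x', rfl, fun i => by rw [h5]; exact h2 i⟩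
    obtain ⟨y', hy'⟩ := (hε.2 _).1 h8
    have h9 : w = fun i => (X - C c) * y' i := by
      apply certL_comb_inj hε.1
      rw [comb_smul, ← hy', ← comb_smul, hcc]
      congr 1
      exact funext hx'
    funext j
    have := congrArg (eval c) (congrFun h9 j)
    simpa [hw'] using this

end Fermat.Agent.GAL.KN
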