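import Fermat.Agent.GAL.KN.Red
import Fermat.Agent.GAL.KN.CertL

/-!
# GAL / KN : the integral certificate
-/

set_option autoImplicit false

namespace Fermat.Agent.GAL.KN

open Polynomial Fermat.Agent.GAL.KL

variable {L F Γ₀ : Type*} [Field L] [Field F] [Algebra L F] [LinearOrderedCommGroupWithZero Γ₀]
  {v : Valuation F Γ₀} {t : F} {k E : Type*} [Field k] [Field E] [Algebra k E]
  {D : RedData L v k E} {n : ℕ} {e : Fin n → F}

/-- `v (t - c) = 1` for `v c ≤ 1`. -/
theorem certA_v_sub (hG : Gauss L v t) (c : L) (hc : v (algebraMap L F c) ≤ 1) :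
    v (t - algebraMap L F c) = 1 := by
  apply le_antisymm
  · exact le_trans (Valuation.map_sub v _ _) (max_le hG.v_t.le hc)
  · have h1 : t - algebraMap L F c = aeval t (X - C c) := by simp
    have h2 := (hG (X - C c) (v (t - algebraMap L F c))).mp (by rw [h1]) 1
    rw [coeff_sub, coeff_X_one, coeff_C_succ, sub_zero, map_one, map_one] at h2
    exact h2

/-! ### N14 : the integral certificate

PROOF.  Take `Q, G₂, u, r` from `exists_certL` (for `c : L`).  The entries of `Q` are integral (`ε_j = comb (Q j) e` has `v = 1`, `e` orthonormal: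
`RedData.exists_up_comb`): `Q = Q'.map D.up`.  The entries of `gram M * Q'ᵀ` (over `A[X]`) vanish at `c : A` (apply the injective `D.up`), so they are
divisible by `X - C c` in `A[X]` (`Polynomial.dvd_iff_isRoot`): this defines `G₂'` with `G₂'.map D.up = G₂`.
Determinants: `D.up (gram M).det * (C u * π^r) = π^n * G₂.det`; as `G₂.det.eval c ≠ 0`, `r ≤ n` and
`D.up (gram M).det = π^(n-r) * (C u⁻¹ * G₂.det)`; `hD` gives `v (u⁻¹ * G₂.det.eval c) = 1`, so `v (G₂.det.eval c) = 1`: a unit of `A`
(`RedData.isUnit_iff`, `RedData.eval_up`).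
Nilpotency: `ε_j ^ n = (t - c) * comb p e`, `v (t - c) = 1` (`Gauss`), so `v (comb p e) ≤ 1` and `p` is integral. -/
theorem exists_certA [IsAlgClosed L] [CharZero L] (hG : Gauss L v t)
    (he : IsBasis L t e (BB L t)) (hON : ON L v t e) (hsp : Spans L t e)
    (M : Fin n → Matrix (Fin n) (Fin n) D.A[X]) (O : IsOrder L t e (fun i => (M i).map D.up))
    (c : D.A)
    (hD : ∀ (a : ℕ) (D₁ : L[X]), D.up (gram M).det = (X - C (c : L)) ^ a * D₁ →
      D₁.eval (c : L) ≠ 0 → v (algebraMap L F (D₁.eval (c : L))) = 1) :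
    CertA D t e M c := by
  have hc : v (algebraMap L F (c : L)) ≤ 1 := (D.mem_A _).mp c.2
  obtain ⟨Q, G₂, u, r, hQON, h1, h2, h3, h4, h5⟩ := exists_certL hG O he hON hsp (c : L) hc
  have hπ0 : (X - C (c : L)) ≠ 0 := X_sub_C_ne_zero _
  have hu0 : u ≠ 0 := by
    rintro rfl
    rw [map_zero, map_zero] at h4
    exact zero_ne_one h4
  -- `Q` is integral
  have hQ : ∀ j, ∃ q : Fin n → D.A[X], ∀ i, D.up (q i) = Q j i := fun j =>
    RedData.exists_up_comb (D := D) hG e hON (Q j) (hQON.v_eq_one j).le
  choose Q' hQ' using hQ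
  have hQmap : (Matrix.of Q').map D.up = Q := by
    ext i j : 1
    exact hQ' i j
  -- `G₂` is integral
  set H : Matrix (Fin n) (Fin n) D.A[X] := gram M * (Matrix.of Q').transpose with hH
  have hHmap : H.map D.up = (X - C (c : L)) • G₂ := by
    rw [hH, Matrix.map_mul, Matrix.transpose_map, hQmap, ← gram_map]
    exact h1
  have hHdvd : ∀ i j, ∃ g : D.A[X], H i j = (X - C c) * g := by
    intro i j
    have h6 : D.up (H i j) = (X - C (c : L)) * G₂ i j := by
      have := congrFun (congrFun hHmap i) j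
      simpa using this
    have h7 : (H i j).eval c = 0 := by
      apply Subtype.ext
      rw [← D.eval_up, h6]
      simp
    exact dvd_iff_isRoot.mpr h7
  choose G₂' hG₂' using hHdvd
  have hGmap : (Matrix.of G₂').map D.up = G₂ := by
    ext i j : 1
    have h6 : D.up (H i j) = (X - C (c : L)) * G₂ i j := by
      have := congrFun (congrFun hHmap i) j
      simpa using this
    rw [hG₂' i j, map_mul, map_sub, D.up_X, D.up_C] at h6
    exact mul_left_cancel₀ hπ0 h6
  refine ⟨Matrix.of Q', Matrix.of G₂', n, ?_, ?_, ?_⟩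
  · ext i j : 1
    rw [← hH, hG₂' i j]
    rfl
  · -- the determinant
    have hdet : D.up (gram M).det * (C u * (X - C (c : L)) ^ r) = (X - C (c : L)) ^ n * G₂.det := by
      have h6 := congrArg Matrix.det h1
      rw [Matrix.det_mul, Matrix.det_transpose, h3, Matrix.det_smul, Fintype.card_fin,
        gram_map] at h6
      rw [RingHom.map_det]
      exact h6
    have hrn : r ≤ n := by
      by_contra hlt
      have hlt' : n < r := not_le.mp hlt
      obtain ⟨s, rfl⟩ := Nat.exists_eq_add_of_lt hlt'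
      have h6 : (X - C (c : L)) ^ n * (D.up (gram M).det * (C u * (X - C (c : L)) ^ (s + 1))) =
          (X - C (c : L)) ^ n * G₂.det := by
        rw [← hdet]; ring
      have h7 := mul_left_cancel₀ (pow_ne_zero n hπ0) h6
      apply h2
      rw [← h7]
      simp
    obtain ⟨s, hs⟩ := Nat.exists_eq_add_of_le hrn
    have h6 : (X - C (c : L)) ^ r * (D.up (gram M).det * C u) =
        (X - C (c : L)) ^ r * ((X - C (c : L)) ^ s * G₂.det) := by
      rw [← mul_assoc ((X - C (c : L)) ^ r) ((X - C (c : L)) ^ s), ← pow_add, ← hs, ← hdet]; ring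
    have h7 := mul_left_cancel₀ (pow_ne_zero r hπ0) h6
    have h8 : D.up (gram M).det = (X - C (c : L)) ^ s * (C u⁻¹ * G₂.det) := by
      have : D.up (gram M).det = D.up (gram M).det * C u * C u⁻¹ := by
        rw [mul_assoc, ← C_mul, mul_inv_cancel₀ hu0, C_1, mul_one]
      rw [this, h7]; ring
    have h9 := hD s _ h8 (by
      rw [eval_mul, eval_C]
      exact mul_ne_zero (inv_ne_zero hu0) h2)
    rw [eval_mul, eval_C, map_mul, map_mul, map_inv₀, map_inv₀, h4, inv_one, one_mul] at h9
    rw [D.isUnit_iff, ← D.eval_up, RingHom.map_det]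
    have h10 : D.up.mapMatrix (Matrix.of G₂') = G₂ := hGmap
    rw [h10]
    exact h9
  · intro j
    obtain ⟨p, hp⟩ := h5 j
    have hv : v (comb L t p e) ≤ 1 := by
      have h6 := congrArg v hp
      rw [map_pow, hQON.v_eq_one j, one_pow, map_mul, certA_v_sub hG _ hc, one_mul] at h6
      exact h6.symm.le
    obtain ⟨p', hp'⟩ := RedData.exists_up_comb (D := D) hG e hON p hv
    refine ⟨p', ?_⟩
    have e1 : (fun i => D.up (Matrix.of Q' j i)) = Q j := funext fun i => hQ' j i
    have e2 : (fun i => D.up (p' i)) = p := funext hp'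
    rw [e1, e2]
    exact hp

end Fermat.Agent.GAL.KN
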