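import Fermat.Agent.GAL.KN.Defs
import Fermat.Agent.GAL.KL.Basic

/-!
# GAL / KN / N1 : API for structure constants, multiplication matrices and the trace form

Everything is formal: `x = comb p e ↦ mulC M p` is the regular representation in the basis `e`
(`x * e j = comb (mulC M p j) e`), `trC M p = trace (mulC M p)`.
-/

set_option autoImplicit false

namespace Fermat.Agent.GAL.KN

open Polynomial Fermat.Agent.GAL.KL

section Formal

variable {S S' : Type*} [CommRing S] [CommRing S'] {n : ℕ}

theorem Trace_mulC_apply (M : Fin n → Matrix (Fin n) (Fin n) S) (p : Fin n → S) (j l : Fin n) :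
    mulC M p j l = ∑ i, p i * M i j l := by
  simp [mulC, Matrix.sum_apply]

theorem Trace_mulC_add (M : Fin n → Matrix (Fin n) (Fin n) S) (p q : Fin n → S) :
    mulC M (p + q) = mulC M p + mulC M q := by
  simp [mulC, add_smul, Finset.sum_add_distrib]

theorem Trace_mulC_smul (M : Fin n → Matrix (Fin n) (Fin n) S) (a : S) (p : Fin n → S) :
    mulC M (fun i => a * p i) = a • mulC M p := by
  simp [mulC, Finset.smul_sum, mul_smul]

theorem trC_eq_trace (M : Fin n → Matrix (Fin n) (Fin n) S) (p : Fin n → S) :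
    trC M p = (mulC M p).trace := by
  simp [trC, mulC, Matrix.trace_sum, Matrix.trace_smul]

/-- `Tr (x y) = pᵀ G q` (`q ᵥ* mulC M p` are the coordinates of `x y`, see `IsOrder.comb_mul_comb`). -/
theorem trC_vecMul (M : Fin n → Matrix (Fin n) (Fin n) S) (p q : Fin n → S) :
    trC M (Matrix.vecMul q (mulC M p)) = p ⬝ᵥ (gram M).mulVec q := by
  simp only [trC, Matrix.vecMul, dotProduct, Matrix.mulVec, gram, Trace_mulC_apply, Finset.sum_mul,
    Finset.mul_sum]
  rw [Finset.sum_comm]
  conv_lhs => enter [2, j]; rw [Finset.sum_comm]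
  rw [Finset.sum_comm]
  refine Finset.sum_congr rfl fun i _ => Finset.sum_congr rfl fun j _ =>
    Finset.sum_congr rfl fun l _ => ?_
  ring

theorem trC_map (f : S →+* S') (M : Fin n → Matrix (Fin n) (Fin n) S) (p : Fin n → S) :
    trC (fun i => (M i).map f) (fun i => f (p i)) = f (trC M p) := by
  simp [trC, Matrix.trace, map_sum]

theorem gram_map (f : S →+* S') (M : Fin n → Matrix (Fin n) (Fin n) S) :
    gram (fun i => (M i).map f) = (gram M).map f := by
  ext i j
  simp only [gram, Matrix.map_apply]
  exact trC_map f M (M i j)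

theorem Trace_mulC_map (f : S →+* S') (M : Fin n → Matrix (Fin n) (Fin n) S) (p : Fin n → S) :
    mulC (fun i => (M i).map f) (fun i => f (p i)) = (mulC M p).map f := by
  ext j l
  simp [Trace_mulC_apply, map_sum]

end Formal

variable {K E : Type*} [Field K] [Field E] [Algebra K E] {n : ℕ} {τ : E} {e : Fin n → E}
  {M : Fin n → Matrix (Fin n) (Fin n) K[X]}

theorem Trace_comb_sub (p q : Fin n → K[X]) : comb K τ (p - q) e = comb K τ p e - comb K τ q e := by
  simp only [comb, Pi.sub_apply, map_sub, sub_mul, Finset.sum_sub_distrib]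

theorem IsOrder.trace_comb_inj (O : IsOrder K τ e M) {p q : Fin n → K[X]}
    (h : comb K τ p e = comb K τ q e) : p = q := by
  have := O.ind (p - q) (by rw [Trace_comb_sub, h, sub_self])
  exact sub_eq_zero.1 this

theorem IsOrder.comb_mul_e (O : IsOrder K τ e M) (p : Fin n → K[X]) (j : Fin n) :
    comb K τ p e * e j = comb K τ (mulC M p j) e := by
  have h1 : comb K τ p e * e j = ∑ i, aeval τ (p i) * comb K τ (M i j) e := by
    rw [comb, Finset.sum_mul]
    refine Finset.sum_congr rfl fun i _ => ?_
    rw [mul_assoc, O.str i j]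
  rw [h1]
  simp only [comb, Trace_mulC_apply, map_sum, map_mul, Finset.mul_sum, Finset.sum_mul]
  rw [Finset.sum_comm]
  refine Finset.sum_congr rfl fun l _ => Finset.sum_congr rfl fun i _ => ?_
  ring

theorem IsOrder.comb_mul_comb (O : IsOrder K τ e M) (p q : Fin n → K[X]) :
    comb K τ p e * comb K τ q e = comb K τ (Matrix.vecMul q (mulC M p)) e := by
  rw [← comb_comb]
  have h1 : comb K τ q (fun i => comb K τ (mulC M p i) e) =
      ∑ j, aeval τ (q j) * (comb K τ p e * e j) := by
    rw [comb]
    exact Finset.sum_congr rfl fun j _ => by rw [O.comb_mul_e]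
  have h2 : comb K τ q e = ∑ j, aeval τ (q j) * e j := rfl
  rw [h1, h2, Finset.mul_sum]
  refine Finset.sum_congr rfl fun j _ => ?_
  ring

/-- if `x = comb p e` and `x * e j = comb (B j) e` for all `j` then `B = mulC M p`. -/
theorem IsOrder.mulC_unique (O : IsOrder K τ e M) (p : Fin n → K[X])
    (B : Matrix (Fin n) (Fin n) K[X]) (h : ∀ j, comb K τ p e * e j = comb K τ (B j) e) :
    B = mulC M p := by
  funext j
  exact O.trace_comb_inj ((h j).symm.trans (O.comb_mul_e p j))

/-- the regular representation is multiplicative. -/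
theorem IsOrder.mulC_vecMul (O : IsOrder K τ e M) (p q : Fin n → K[X]) :
    mulC M (Matrix.vecMul q (mulC M p)) = mulC M q * mulC M p := by
  refine (O.mulC_unique _ _ fun j => ?_).symm
  rw [← O.comb_mul_comb, mul_assoc, O.comb_mul_e q j, O.comb_mul_comb]
  rfl

theorem IsOrder.trace_mulC_one (O : IsOrder K τ e M) {p : Fin n → K[X]} (hp : (1 : E) = comb K τ p e) :
    mulC M p = 1 := by
  classical
  refine (O.mulC_unique p 1 fun j => ?_).symm
  rw [← hp, one_mul]
  have : (1 : Matrix (Fin n) (Fin n) K[X]) j = Pi.single j 1 := by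
    ext l
    simp [Matrix.one_apply, Pi.single_apply, eq_comm]
  rw [this, comb_single, map_one, one_mul]

theorem IsOrder.exists_pow (O : IsOrder K τ e M) (p : Fin n → K[X]) (m : ℕ) :
    ∃ r : Fin n → K[X], comb K τ p e ^ m = comb K τ r e ∧ mulC M r = mulC M p ^ m := by
  induction m with
  | zero =>
    obtain ⟨p1, hp1⟩ := O.one
    exact ⟨p1, by rw [pow_zero, hp1], by rw [pow_zero, O.trace_mulC_one hp1]⟩
  | succ m ih =>
    obtain ⟨r, hr1, hr2⟩ := ih
    refine ⟨Matrix.vecMul p (mulC M r), ?_, ?_⟩
    · rw [pow_succ, hr1, O.comb_mul_comb]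
    · rw [O.mulC_vecMul, hr2, pow_succ']

/-- the coordinates are determined by the multiplication matrix: if `(X - c) ∣ mulC M p` entrywise then
`(X - c) ∣ p` (use `x = x * 1`, `O.one`). -/
theorem IsOrder.dvd_of_dvd_mulC (O : IsOrder K τ e M) (g : K[X]) (p : Fin n → K[X])
    (h : ∀ i j, g ∣ mulC M p i j) : ∀ i, g ∣ p i := by
  obtain ⟨p1, hp1⟩ := O.one
  have h1 : p = Matrix.vecMul p1 (mulC M p) := by
    apply O.trace_comb_inj
    rw [← O.comb_mul_comb, ← hp1, mul_one]
  intro i
  rw [h1]
  simp only [Matrix.vecMul, dotProduct]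
  exact Finset.dvd_sum fun j _ => Dvd.dvd.mul_left (h j i) _

theorem IsOrder.n_pos (O : IsOrder K τ e M) : 0 < n := by
  rcases Nat.eq_zero_or_pos n with rfl | h
  · obtain ⟨p, hp⟩ := O.one
    simp [comb] at hp
  · exact h

/-- elements of an order are integral over `K[τ]` (Cayley–Hamilton for `mulC M p`, or
`IsIntegral` of a finite module). -/
theorem IsOrder.isInt (O : IsOrder K τ e M) (p : Fin n → K[X]) : IsInt K τ (comb K τ p e) := by
  let _ : Algebra K[X] E := ((aeval τ : K[X] →ₐ[K] E) : K[X] →+* E).toAlgebra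
  have hsmul : ∀ (a : K[X]) (x : E), a • x = aeval τ a * x := fun a x => rfl
  have hcomb : ∀ q : Fin n → K[X], comb K τ q e ∈ Submodule.span K[X] (Set.range e) := by
    intro q
    rw [comb]
    refine Submodule.sum_mem _ fun i _ => ?_
    rw [← hsmul]
    exact Submodule.smul_mem _ _ (Submodule.subset_span ⟨i, rfl⟩)
  have key : IsIntegral K[X] (comb K τ p e) := by
    refine isIntegral_of_smul_mem_submodule (M := E) (Submodule.span K[X] (Set.range e)) ?_
      (Submodule.fg_span (Set.finite_range e)) _ ?_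
    · intro hbot
      obtain ⟨p1, hp1⟩ := O.one
      have h1 := hcomb p1
      rw [← hp1, hbot, Submodule.mem_bot] at h1
      exact one_ne_zero h1
    · intro y hy
      induction hy using Submodule.span_induction with
      | mem y hy =>
        obtain ⟨j, rfl⟩ := hy
        rw [smul_eq_mul, O.comb_mul_e]
        exact hcomb _
      | zero => rw [smul_zero]; exact Submodule.zero_mem _
      | add y z _ _ hy hz => rw [smul_add]; exact Submodule.add_mem _ hy hz
      | smul a y _ hy =>
        rw [smul_comm]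
        exact Submodule.smul_mem _ _ hy
  exact key

/-- **an element which is nilpotent modulo `τ - c` (up to a denominator prime to `τ - c`) has trace `≡ 0`.**
(`s(c) • A ^ m = 0` for `A = (mulC M p).map (eval c)`, so `A` is nilpotent and `trace A = 0`:
`Matrix.isNilpotent_trace_of_isNilpotent`.) -/
theorem IsOrder.trC_eval_eq_zero (O : IsOrder K τ e M) (c : K) (p r : Fin n → K[X]) (s : K[X])
    (m : ℕ) (hs : s.eval c ≠ 0)
    (h : aeval τ s * comb K τ p e ^ m = (τ - algebraMap K E c) * comb K τ r e) :
    (trC M p).eval c = 0 := by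
  obtain ⟨rm, hrm1, hrm2⟩ := O.exists_pow p m
  have hτ : τ - algebraMap K E c = aeval τ (X - C c) := by simp
  rw [hrm1, hτ, ← comb_smul, ← comb_smul] at h
  have h1 := O.trace_comb_inj h
  have h2 : s • mulC M p ^ m = (X - C c) • mulC M r := by
    rw [← hrm2, ← Trace_mulC_smul, ← Trace_mulC_smul, h1]
  set A : Matrix (Fin n) (Fin n) K := (mulC M p).map (eval c) with hA
  have h3 : s.eval c • A ^ m = 0 := by
    have h4 := congrArg (fun B : Matrix (Fin n) (Fin n) K[X] => (evalRingHom c).mapMatrix B) h2
    simp only [RingHom.mapMatrix_apply] at h4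
    have h5 : (s • mulC M p ^ m).map (evalRingHom c) = s.eval c • A ^ m := by
      rw [hA]
      have : ((mulC M p) ^ m).map (evalRingHom c) = ((mulC M p).map (evalRingHom c)) ^ m :=
        map_pow (evalRingHom c).mapMatrix (mulC M p) m
      ext i j
      have h6 := congrFun (congrFun this i) j
      simp only [Matrix.map_apply, Matrix.smul_apply, smul_eq_mul, coe_evalRingHom, eval_mul] at h6 ⊢
      rw [h6]
    have h7 : ((X - C c) • mulC M r).map (evalRingHom c) = 0 := by
      ext i j
      simp
    rw [← h5, h4, h7]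
  have h8 : A ^ m = 0 := (smul_eq_zero.1 h3).resolve_left hs
  have h9 : IsNilpotent A.trace := Matrix.isNilpotent_trace_of_isNilpotent ⟨m, h8⟩
  have h10 : A.trace = 0 := h9.eq_zero
  rw [trC_eq_trace]
  rw [← h10, hA]
  simp [Matrix.trace, eval_finsetSum]

end Fermat.Agent.GAL.KN
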