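import Fermat.Agent.GAL.KN.Red
import Fermat.Agent.GAL.KN.Trace

/-!
# GAL / KN : reduction of the certificate
-/

set_option autoImplicit false

namespace Fermat.Agent.GAL.KN

open Polynomial Fermat.Agent.GAL.KL

variable {L F Γ₀ : Type*} [Field L] [Field F] [Algebra L F] [LinearOrderedCommGroupWithZero Γ₀]
  {v : Valuation F Γ₀} {t : F} {k E : Type*} [Field k] [Field E] [Algebra k E]
  {D : RedData L v k E} {n : ℕ} {e : Fin n → F}

/-! ### N15 : reduction of the certificate

PROOF.  Apply the ring homomorphism `D.dn` to the matrix identity (`gram_map`, `Matrix.map_mul`, `Matrix.transpose_map`, `RingHom.map_det`,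
`RedData.eval_dn`; a unit of `A` has nonzero residue), and `D.red` to the nilpotency relations (`RedData.red_comb`, `red_pow`, `red_mul`, `red_sub`,
`red_algebraMap`). -/
theorem CertA.cert (hG : Gauss L v t) (he : ∀ i, v (e i) ≤ 1)
    (M : Fin n → Matrix (Fin n) (Fin n) D.A[X]) (c : D.A) (h : CertA D t e M c) :
    Cert k (D.red t) (fun i => D.red (e i)) (fun i => (M i).map D.dn) (D.res c) := by
  obtain ⟨Q, G₂, N, h1, h2, h3⟩ := h
  refine ⟨Q.map D.dn, G₂.map D.dn, N, ?_, ?_, ?_⟩
  · rw [gram_map, ← Matrix.transpose_map, ← Matrix.map_mul, h1]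
    ext i j : 1
    simp only [Matrix.map_apply, Matrix.smul_apply, smul_eq_mul, map_mul, map_sub, D.dn_X, D.dn_C]
  · have h4 : (G₂.map D.dn).det = D.dn G₂.det := (RingHom.map_det D.dn G₂).symm
    rw [h4, D.eval_dn]
    exact (h2.map D.res).ne_zero
  · intro j
    obtain ⟨p, hp⟩ := h3 j
    refine ⟨fun i => D.dn (p i), ?_⟩
    have hvc : v (algebraMap L F (c : L)) ≤ 1 := (D.mem_A _).mp c.2
    have hvt : v t ≤ 1 := hG.v_t.le
    have h5 := congrArg D.red hp
    rw [D.red_pow (RedData.v_comb_up_le hG e he _), RedData.red_comb hG e he,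
      D.red_mul (le_trans (Valuation.map_sub v _ _) (max_le hvt hvc))
        (RedData.v_comb_up_le hG e he _),
      D.red_sub hvt hvc, D.red_algebraMap, RedData.red_comb hG e he] at h5
    exact h5

end Fermat.Agent.GAL.KN
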