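import Fermat.Agent.GAL.KN.Rad
import Fermat.Agent.GAL.KL.Lattice

/-!
# GAL / KN : char 0: tameness
-/

set_option autoImplicit false

namespace Fermat.Agent.GAL.KN

open Polynomial Fermat.Agent.GAL.KL

variable {L F Γ₀ : Type*} [Field L] [Field F] [Algebra L F] [LinearOrderedCommGroupWithZero Γ₀]
  {v : Valuation F Γ₀} {t : F} {n : ℕ} {e : Fin n → F} {M : Fin n → Matrix (Fin n) (Fin n) L[X]}

open scoped nonZeroDivisors in
/-- abstract Dedekind step. -/
theorem core_dedekind {B F : Type*} [CommRing B] [IsDedekindDomain B] [Field F] [Algebra B F]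
    [IsFractionRing B F] (u : F) (π : B) (n : ℕ)
    (hπ : ∃ z : B, algebraMap B F z = u * algebraMap B F π)
    (h : ∀ b w : B, algebraMap B F w = u * algebraMap B F b → π ∣ w ^ n) :
    ∃ w : B, algebraMap B F w = u := by
  by_contra hne
  let 𝔞 : Ideal B :=
    { carrier := {b | ∃ w : B, algebraMap B F w = u * algebraMap B F b}
      add_mem' := by
        rintro a b ⟨w, hw⟩ ⟨w', hw'⟩
        exact ⟨w + w', by rw [map_add, map_add, hw, hw', mul_add]⟩
      zero_mem' := ⟨0, by simp⟩
      smul_mem' := by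
        rintro r b ⟨w, hw⟩
        exact ⟨r * w, by rw [smul_eq_mul, map_mul, map_mul, hw]; ring⟩ }
  have h𝔞 : 𝔞 ≠ ⊤ := by
    intro htop
    have h1 : (1 : B) ∈ 𝔞 := htop ▸ Submodule.mem_top
    obtain ⟨w, hw⟩ := h1
    exact hne ⟨w, by rw [hw, map_one, mul_one]⟩
  obtain ⟨P, hP, hle⟩ := Ideal.exists_le_maximal 𝔞 h𝔞
  have hPp : P.IsPrime := hP.isPrime
  have hπP : π ∈ P := hle hπ
  have hw : ∀ b w : B, algebraMap B F w = u * algebraMap B F b → w ∈ P := by
    intro b w hbw
    apply hPp.mem_of_pow_mem n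
    obtain ⟨r, hr⟩ := h b w hbw
    rw [hr]
    exact P.mul_mem_right _ hπP
  let I : FractionalIdeal B⁰ F := 1 + FractionalIdeal.spanSingleton B⁰ u
  have h1I : (1 : F) ∈ I := by
    rw [FractionalIdeal.mem_add]
    exact ⟨1, FractionalIdeal.one_mem_one _, 0, FractionalIdeal.zero_mem _, by simp⟩
  have huI : u ∈ I := by
    rw [FractionalIdeal.mem_add]
    exact ⟨0, FractionalIdeal.zero_mem _, u, FractionalIdeal.mem_spanSingleton_self _ _, by simp⟩
  have hI : I ≠ 0 := by
    intro h0
    rw [h0] at h1I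
    exact one_ne_zero ((FractionalIdeal.mem_zero_iff _).1 h1I)
  have hinv : I * I⁻¹ = 1 := mul_inv_cancel₀ hI
  have key : ∀ y ∈ I * I⁻¹, ∃ p ∈ P, algebraMap B F p = y := by
    intro y hy
    refine FractionalIdeal.mul_induction_on (C := fun y => ∃ p ∈ P, algebraMap B F p = y) hy ?_ ?_
    · intro i hi j hj
      rw [FractionalIdeal.mem_add] at hi
      obtain ⟨a, ha, a', ha', rfl⟩ := hi
      obtain ⟨r, rfl⟩ := (FractionalIdeal.mem_one_iff _).1 ha
      obtain ⟨s, rfl⟩ := (FractionalIdeal.mem_spanSingleton _).1 ha'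
      rw [FractionalIdeal.mem_inv_iff hI] at hj
      obtain ⟨b, hb⟩ := (FractionalIdeal.mem_one_iff _).1 (hj 1 h1I)
      obtain ⟨w, hw'⟩ := (FractionalIdeal.mem_one_iff _).1 (hj u huI)
      rw [mul_one] at hb
      have hbw : algebraMap B F w = u * algebraMap B F b := by rw [hw', hb, mul_comm]
      refine ⟨r * b + s * w, P.add_mem (P.mul_mem_left _ (hle ⟨w, hbw⟩))
        (P.mul_mem_left _ (hw b w hbw)), ?_⟩
      rw [map_add, map_mul, map_mul, hbw, hb, Algebra.smul_def]
      ring
    · rintro x y ⟨p, hp, rfl⟩ ⟨p', hp', rfl⟩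
      exact ⟨p + p', P.add_mem hp hp', map_add _ _ _⟩
  obtain ⟨p, hp, hp1⟩ := key 1 (hinv ▸ FractionalIdeal.one_mem_one _)
  have : p = 1 := IsFractionRing.injective B F (by rw [hp1, map_one])
  exact hP.ne_top ((Ideal.eq_top_iff_one P).2 (this ▸ hp))

theorem core_comb_inj (O : IsOrder L t e M) {p q : Fin n → L[X]}
    (h : comb L t p e = comb L t q e) : p = q := by
  have h1 : comb L t (p - q) e = 0 := by
    have : comb L t (p - q) e = comb L t p e - comb L t q e := by
      simp only [comb, Pi.sub_apply, map_sub, sub_mul, Finset.sum_sub_distrib]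
    rw [this, h, sub_self]
  exact sub_eq_zero.1 (O.ind _ h1)

theorem core_trace (O : IsOrder L t e M) (c : L) (x y β : Fin n → L[X])
    (hx : ∀ i, (X - C c) ^ 2 ∣ (gram M).mulVec x i)
    (h : (t - algebraMap L F c) * comb L t y e = comb L t x e * comb L t β e) :
    ∀ i, ((gram M).mulVec y i).eval c = 0 := by
  classical
  intro i
  set δ : Fin n → L[X] := Pi.single i 1 with hδ
  have hδe : comb L t δ e = e i := by rw [hδ, comb_single, map_one, one_mul]
  have hπ : aeval t (X - C c) = t - algebraMap L F c := by simp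
  set y' : Fin n → L[X] := fun k => (X - C c) * y k with hy'
  have hy'e : comb L t y' e = (t - algebraMap L F c) * comb L t y e := by
    rw [hy', comb_smul, hπ]
  set s : Fin n → L[X] := Matrix.vecMul β (mulC M δ) with hs
  have hse : comb L t s e = e i * comb L t β e := by
    rw [hs, ← O.comb_mul_comb, hδe]
  have hr : Matrix.vecMul y' (mulC M δ) = Matrix.vecMul x (mulC M s) := by
    apply core_comb_inj O
    rw [← O.comb_mul_comb, ← O.comb_mul_comb, hδe, hy'e, hse, h]
    ring
  have h1 : (X - C c) * (gram M).mulVec y i = s ⬝ᵥ (gram M).mulVec x := by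
    rw [← trC_vecMul, ← hr, trC_vecMul, hδ, single_one_dotProduct]
    have : y' = (X - C c) • y := by
      ext k
      simp [hy']
    rw [this, Matrix.mulVec_smul, Pi.smul_apply, smul_eq_mul]
  have h2 : (X - C c) ^ 2 ∣ s ⬝ᵥ (gram M).mulVec x :=
    Finset.dvd_sum fun k _ => Dvd.dvd.mul_left (hx k) _
  obtain ⟨q, hq⟩ := h2
  have hne : (X - C c : L[X]) ≠ 0 := X_sub_C_ne_zero c
  have h3 : (gram M).mulVec y i = (X - C c) * q := by
    apply mul_left_cancel₀ hne
    rw [h1, hq]
    ring
  rw [h3]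
  simp

theorem core_aux [IsAlgClosed L] [CharZero L] [Algebra L[X] F]
    (hA : ∀ p : L[X], algebraMap L[X] F p = aeval t p) (O : IsOrder L t e M)
    (he : IsBasis L t e (BB L t))
    (hsp : Spans L t e) (c : L) (x : Fin n → L[X])
    (hx : ∀ i, (X - C c) ^ 2 ∣ (gram M).mulVec x i) : ∀ i, (X - C c) ∣ x i := by
  have : FaithfulSMul L[X] F := LatticeFree.faithful hA O.inj
  let : Algebra (FractionRing L[X]) F := FractionRing.liftAlgebra L[X] F
  have : IsScalarTower L[X] (FractionRing L[X]) F := FractionRing.isScalarTower_liftAlgebra _ _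
  have hli0 : LinearIndependent L[X] e := by
    rw [Fintype.linearIndependent_iff]
    intro p hp i
    rw [O.ind p (by rw [LatticeFree.comb_eq hA]; exact hp)]
    rfl
  have hli : LinearIndependent (FractionRing L[X]) e :=
    (LinearIndependent.iff_fractionRing L[X] (FractionRing L[X])).1 hli0
  have hsp' : ⊤ ≤ Submodule.span (FractionRing L[X]) (Set.range e) := by
    intro x _
    obtain ⟨q, p, hq, h⟩ := hsp x
    rw [LatticeFree.comb_eq hA, ← hA, ← Algebra.smul_def] at h
    have hq' : algebraMap L[X] (FractionRing L[X]) q ≠ 0 := by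
      simpa using hq
    have hx : x = (algebraMap L[X] (FractionRing L[X]) q)⁻¹ • ∑ i, p i • e i := by
      rw [← h, ← algebraMap_smul (FractionRing L[X]) q x, smul_smul, inv_mul_cancel₀ hq', one_smul]
    rw [hx]
    refine Submodule.smul_mem _ _ (Submodule.sum_mem _ fun i _ => ?_)
    rw [← algebraMap_smul (FractionRing L[X]) (p i) (e i)]
    exact Submodule.smul_mem _ _ (Submodule.subset_span (Set.mem_range_self i))
  let B := Module.Basis.mk hli hsp'
  have : FiniteDimensional (FractionRing L[X]) F := B.finiteDimensional_of_finite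
  have : CharZero L[X] := inferInstance
  have : CharZero (FractionRing L[X]) := inferInstance
  have : Algebra.IsSeparable (FractionRing L[X]) F := inferInstance
  have : IsDedekindDomain (integralClosure L[X] F) :=
    integralClosure.isDedekindDomain L[X] (FractionRing L[X]) F
  have : IsFractionRing (integralClosure L[X] F) F :=
    integralClosure.isFractionRing_of_finite_extension (FractionRing L[X]) F
  -- elements
  have hπ : aeval t (X - C c) = t - algebraMap L F c := by simp
  have hπ0 : t - algebraMap L F c ≠ 0 := by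
    intro h0
    exact X_sub_C_ne_zero c (O.inj _ (hπ.trans h0))
  have hmem : ∀ p : Fin n → L[X], comb L t p e ∈ integralClosure L[X] F := fun p =>
    (LatticeFree.isInt_iff hA _).1 ((he.2 _).2 ⟨p, rfl⟩)
  have hrep : ∀ b : integralClosure L[X] F, ∃ p : Fin n → L[X], (b : F) = comb L t p e := fun b =>
    (he.2 _).1 ((LatticeFree.isInt_iff hA _).2 b.2)
  have hπmem : t - algebraMap L F c ∈ integralClosure L[X] F := by
    rw [← hπ]
    exact (LatticeFree.isInt_iff hA _).1 (IsInt.aeval _)
  obtain ⟨w, hw⟩ := core_dedekind (B := integralClosure L[X] F) (F := F)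
    (comb L t x e / (t - algebraMap L F c)) ⟨_, hπmem⟩ n
    ⟨⟨_, hmem x⟩, by
      change comb L t x e = comb L t x e / (t - algebraMap L F c) * (t - algebraMap L F c)
      rw [div_mul_cancel₀ _ hπ0]⟩
    (by
      intro b w hbw
      change (w : F) = comb L t x e / (t - algebraMap L F c) * (b : F) at hbw
      obtain ⟨β, hβ⟩ := hrep b
      obtain ⟨y, hy⟩ := hrep w
      have h1 : (t - algebraMap L F c) * comb L t y e = comb L t x e * comb L t β e := by
        rw [← hy, ← hβ, hbw]
        field_simp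
      obtain ⟨p, hp⟩ := rad O c y (core_trace O c x y β hx h1)
      refine ⟨⟨_, hmem p⟩, Subtype.ext ?_⟩
      change (w : F) ^ n = (t - algebraMap L F c) * comb L t p e
      rw [hy, hp])
  change (w : F) = comb L t x e / (t - algebraMap L F c) at hw
  obtain ⟨p, hp⟩ := hrep w
  have h2 : x = fun i => (X - C c) * p i := by
    apply core_comb_inj O
    rw [comb_smul, hπ, ← hp, hw, mul_div_cancel₀ _ hπ0]
  intro i
  rw [h2]
  exact dvd_mul_right _ _

/-! ### N7 : the different exponent is `< e_P` (tameness), in the form: `Tr(z B) ⊆ (π²) ⇒ z ∈ π B`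

PROOF.  `π = t - c`, `z = comb x e`, `u = z / π`.  `𝔅 = integralClosure L[X] F` (`letI : Algebra L[X] F := (aeval t).toAlgebra`, as in
`KL/LatticeFree.lean`) is a Dedekind domain with fraction field `F` (`F` is finite over `L(t)` by `hsp`, separable by char 0).
`𝔞 = {b ∈ 𝔅 | u b ∈ 𝔅}` is an ideal containing `π`.  For `b ∈ 𝔞`, `w = u b ∈ B` satisfies `Tr(w B) ⊆ (π)`
(`Tr (w b') = Tr (z b b') / π`), so `w ^ n ∈ π B` by `rad`.  The fractional ideal `I = 𝔅 + 𝔅 u` is invertible and
`I⁻¹ = 𝔞`, so `1 ∈ 𝔞 + u 𝔞`.  If `𝔞 ≠ ⊤` take a maximal ideal `𝔓 ⊇ 𝔞`; `π ∈ 𝔓`; every `w ∈ u 𝔞` has `w ^ n ∈ π 𝔅 ⊆ 𝔓`, so `w ∈ 𝔓`;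
hence `1 ∈ 𝔓`, contradiction.  So `1 ∈ 𝔞`, `u ∈ B`, `z = π comb p e`, `x = (X - c) p` by independence. -/
theorem core [IsAlgClosed L] [CharZero L] (O : IsOrder L t e M) (he : IsBasis L t e (BB L t))
    (hsp : Spans L t e) (c : L) (x : Fin n → L[X])
    (hx : ∀ i, (X - C c) ^ 2 ∣ (gram M).mulVec x i) : ∀ i, (X - C c) ∣ x i :=
  letI := LatticeFree.alg L t
  core_aux (fun _ => rfl) O he hsp c x hx

end Fermat.Agent.GAL.KN
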