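import Fermat.Agent.GAL.KL.Defs

/-!
# GAL / KN : normality of the reduced charts (route N for `RootClosed`).  Definitions.

An *order* is given by a family `e : Fin n → F` and structure constants `M` (polynomial matrices):
`e i * e j = ∑ l, (M i j l)(t) * e l`.  The trace form is computed from the structure constants, so that it
commutes with every change of the coefficient ring (`A[X] → L[X]`, `A[X] → k[X]`).
-/

set_option autoImplicit false

namespace Fermat.Agent.GAL.KN

open Polynomial Fermat.Agent.GAL.KL

section Str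

variable {S : Type*} [CommRing S] {n : ℕ}

/-- trace of the element with coordinates `p` (`M l` = matrix of the multiplication by `e l`). -/
def trC (M : Fin n → Matrix (Fin n) (Fin n) S) (p : Fin n → S) : S := ∑ l, p l * (M l).trace

/-- the Gram matrix `Tr (e i * e j)` of the trace form. -/
def gram (M : Fin n → Matrix (Fin n) (Fin n) S) : Matrix (Fin n) (Fin n) S :=
  fun i j => trC M (M i j)

/-- the matrix of the multiplication by the element with coordinates `p`. -/
def mulC (M : Fin n → Matrix (Fin n) (Fin n) S) (p : Fin n → S) : Matrix (Fin n) (Fin n) S :=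
  ∑ l, p l • M l

end Str

section Field

variable (K : Type*) {E : Type*} [Field K] [Field E] [Algebra K E] {n : ℕ}

/-- `M` are the structure constants of the family `e`. -/
def IsStr (τ : E) (e : Fin n → E) (M : Fin n → Matrix (Fin n) (Fin n) K[X]) : Prop :=
  ∀ i j, e i * e j = comb K τ (M i j) e

/-- `e` is a basis of an order of `E` over `K[τ]` (with structure constants `M`). -/
structure IsOrder (τ : E) (e : Fin n → E) (M : Fin n → Matrix (Fin n) (Fin n) K[X]) : Prop where
  inj : ∀ p : K[X], aeval τ p = 0 → p = 0
  ind : ∀ p : Fin n → K[X], comb K τ p e = 0 → p = 0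
  str : IsStr K τ e M
  one : ∃ p : Fin n → K[X], (1 : E) = comb K τ p e

/-- `x` lies in the localisation at `τ = c` of the order with basis `e`. -/
def Loc (τ : E) (e : Fin n → E) (c : K) (x : E) : Prop :=
  ∃ (s : K[X]) (p : Fin n → K[X]), s.eval c ≠ 0 ∧ aeval τ s * x = comb K τ p e

/-- **local certificate of maximality at `τ = c`**: a family `ε = Q e` of elements which are nilpotent modulo
`τ - c`, such that `Tr (e i * ε j) = (X - c) * G₂ i j` with `G₂(c)` invertible. -/
def Cert (τ : E) (e : Fin n → E) (M : Fin n → Matrix (Fin n) (Fin n) K[X]) (c : K) : Prop :=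
  ∃ (Q G₂ : Matrix (Fin n) (Fin n) K[X]) (N : ℕ),
    gram M * Q.transpose = (X - C c) • G₂ ∧ (G₂.det).eval c ≠ 0 ∧
    ∀ j, ∃ p : Fin n → K[X], (comb K τ (Q j) e) ^ N = (τ - algebraMap K E c) * comb K τ p e

/-- `τ - c` is squarefree in the integral closure of `K[τ]` ("unramified over `τ = c`"). -/
def Unr (τ : E) (c : K) : Prop :=
  ∀ (z : E) (N : ℕ), IsInt K τ z → IsInt K τ (z ^ N / (τ - algebraMap K E c)) →
    IsInt K τ (z / (τ - algebraMap K E c))

end Field

section Red

variable (L : Type*) {F Γ₀ : Type*} [Field L] [Field F] [Algebra L F]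
  [LinearOrderedCommGroupWithZero Γ₀]

/-- reduction data for `(L, F, v)`: the valuation ring `A` of `L`, its residue map `res : A → k`, and a
reduction map `ρ : O_v → E` with kernel `{v < 1}`, compatible with `res`. -/
structure RedData (v : Valuation F Γ₀) (k E : Type*) [Field k] [Field E] [Algebra k E] where
  A : Subring L
  mem_A : ∀ a : L, a ∈ A ↔ v (algebraMap L F a) ≤ 1
  res : A →+* k
  res_surj : Function.Surjective res
  ρ : v.integer →+* E
  ρ_eq_zero : ∀ x : v.integer, ρ x = 0 ↔ v (x : F) < 1
  ρ_alg : ∀ (a : A) (h : algebraMap L F (a : L) ∈ v.integer),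
    ρ ⟨algebraMap L F (a : L), h⟩ = algebraMap k E (res a)

variable {L} {v : Valuation F Γ₀} {k E : Type*} [Field k] [Field E] [Algebra k E]

/-- `A[X] → L[X]`. -/
noncomputable def RedData.up (D : RedData L v k E) : D.A[X] →+* L[X] := mapRingHom D.A.subtype

/-- `A[X] → k[X]`. -/
noncomputable def RedData.dn (D : RedData L v k E) : D.A[X] →+* k[X] := mapRingHom D.res

open Classical in
/-- the reduction map as a total function `F → E` (junk value `0` outside `O_v`). -/
noncomputable def RedData.red (D : RedData L v k E) (x : F) : E :=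
  if h : x ∈ v.integer then D.ρ ⟨x, h⟩ else 0

/-- **integral local certificate** (all data over `A[X]`). -/
def CertA (D : RedData L v k E) (t : F) {n : ℕ} (e : Fin n → F)
    (M : Fin n → Matrix (Fin n) (Fin n) D.A[X]) (c : D.A) : Prop :=
  ∃ (Q G₂ : Matrix (Fin n) (Fin n) D.A[X]) (N : ℕ),
    gram M * Q.transpose = (X - C c) • G₂ ∧ IsUnit ((G₂.det).eval c) ∧
    ∀ j, ∃ p : Fin n → D.A[X], (comb L t (fun i => D.up (Q j i)) e) ^ N =
      (t - algebraMap L F (c : L)) * comb L t (fun i => D.up (p i)) e

end Red

end Fermat.Agent.GAL.KN
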