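import Fermat.Agent.GAL.KN.Loc

/-!
# GAL / KN : the idealizer lemma
-/

set_option autoImplicit false

namespace Fermat.Agent.GAL.KN

open Polynomial Fermat.Agent.GAL.KL

variable {K E : Type*} [Field K] [Field E] [Algebra K E] {n : ℕ} {τ : E} {e : Fin n → E}
  {M : Fin n → Matrix (Fin n) (Fin n) K[X]}

/-- coordinates are unique -/
theorem IsOrder.comb_inj (O : IsOrder K τ e M) {p q : Fin n → K[X]}
    (h : comb K τ p e = comb K τ q e) : p = q := by
  have h1 : comb K τ (p + fun i => (-1 : K[X]) * q i) e = 0 := by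
    rw [comb_add, comb_smul, h]
    simp
  have h2 := O.ind _ h1
  funext i
  have h3 := congrFun h2 i
  simp only [Pi.add_apply, Pi.zero_apply] at h3
  linear_combination h3

theorem trC_smul' {S : Type*} [CommRing S] (M : Fin n → Matrix (Fin n) (Fin n) S) (g : S)
    (p : Fin n → S) : trC M (fun i => g * p i) = g * trC M p := by
  simp only [trC, Finset.mul_sum, mul_assoc]

theorem IsOrder.pi_ne_zero (O : IsOrder K τ e M) (c : K) : τ - algebraMap K E c ≠ 0 := by
  intro h
  have h1 : aeval τ (X - C c : K[X]) = 0 := by simpa using h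
  exact X_sub_C_ne_zero c (O.inj _ h1)

/-! ### N3 : the idealizer lemma

PROOF.  `π = τ - c`, `ε j = comb (Q j) e`.  Choose `s₀ (c) ≠ 0` with `s₀ π y = u = comb μ e`, and for each `j` an
`s_j (c) ≠ 0` with `s_j ε_j y = w_j = comb (ω j) e`.
(1) `w_j` is nilpotent mod `π` up to a denominator: `w_j ^ (N (a+1)) = s_j^.. (ε_j^N)^(a+1) y^(N(a+1))
   = s_j^.. r_j^(a+1) π (π^a y^(N(a+1)))` and `s' π^a y^(N(a+1)) ∈ R` (`hBD`).  So `(trC M (ω j)).eval c = 0`
   (`IsOrder.trC_eval_eq_zero`).
(2) `(s_j u) ε_j = s₀ π w_j`.  Taking traces (`trC_vecMul`, `h1`):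
   `s_j (X - c) (μ ᵥ* G₂) j = s₀ (X - c) trC M (ω j)`, so `((μ ᵥ* G₂) j).eval c = 0`.
(3) `G₂(c)` is invertible, so `μ(c) = 0`, `μ = (X - c) μ'`, `s₀ y = comb μ' e`. -/
theorem idealizer (O : IsOrder K τ e M) {c : K} {Q G₂ : Matrix (Fin n) (Fin n) K[X]} {N : ℕ}
    (h1 : gram M * Q.transpose = (X - C c) • G₂) (h2 : (G₂.det).eval c ≠ 0)
    (h3 : ∀ j, ∃ p : Fin n → K[X],
      (comb K τ (Q j) e) ^ N = (τ - algebraMap K E c) * comb K τ p e)
    (y : E) (a : ℕ) (hBD : ∀ m : ℕ, Loc K τ e c ((τ - algebraMap K E c) ^ a * y ^ m))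
    (hπ : Loc K τ e c ((τ - algebraMap K E c) * y))
    (hε : ∀ j, Loc K τ e c (comb K τ (Q j) e * y)) : Loc K τ e c y := by
  set π : E := τ - algebraMap K E c with hπdef
  have hπ0 : π ≠ 0 := O.pi_ne_zero c
  have hπa : aeval τ (X - C c : K[X]) = π := by simp [hπdef]
  obtain ⟨s₀, μ, hs₀, hμ⟩ := hπ
  -- the key claim
  have key : ∀ j, ((Matrix.vecMul μ G₂) j).eval c = 0 := by
    intro j
    obtain ⟨s, ω, hs, hω⟩ := hε j
    obtain ⟨pj, hpj⟩ := h3 j
    -- (1)
    have htr : (trC M ω).eval c = 0 := by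
      obtain ⟨s', p', hs', hp'⟩ := hBD (N * (a + 1))
      obtain ⟨r', hr', -⟩ := O.exists_pow pj (a + 1)
      refine O.trC_eval_eq_zero c ω
        (fun i => s ^ (N * (a + 1)) * (Matrix.vecMul p' (mulC M r')) i) s' (N * (a + 1)) hs' ?_
      have hε' : comb K τ (Q j) e ^ (N * (a + 1)) = π ^ (a + 1) * comb K τ pj e ^ (a + 1) := by
        rw [pow_mul, hpj, mul_pow]
      rw [comb_smul, ← O.comb_mul_comb, ← hr', ← hp', ← hω, map_pow, mul_pow, mul_pow, hε',
        pow_succ π a, ← hπdef]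
      ring
    -- (2)
    have hcoord : Matrix.vecMul (Q j) (mulC M (fun i => s * μ i)) =
        fun i => (s₀ * (X - C c)) * ω i := by
      apply O.comb_inj
      rw [← O.comb_mul_comb, comb_smul, comb_smul, ← hμ, ← hω, map_mul, hπa]
      ring
    have htrace := congrArg (trC M) hcoord
    rw [trC_vecMul, trC_smul'] at htrace
    have hcol : (gram M).mulVec (Q j) = fun i => (X - C c) * G₂ i j := by
      funext i
      have := congrFun (congrFun h1 i) j
      simp only [Matrix.mul_apply, Matrix.transpose_apply, Matrix.smul_apply, smul_eq_mul] at this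
      rw [← this]
      rfl
    rw [hcol] at htrace
    have hlhs : (fun i => s * μ i) ⬝ᵥ (fun i => (X - C c) * G₂ i j) =
        (X - C c) * (s * (Matrix.vecMul μ G₂) j) := by
      simp only [dotProduct, Matrix.vecMul, Finset.mul_sum]
      exact Finset.sum_congr rfl fun i _ => by ring
    rw [hlhs, mul_comm s₀, mul_assoc] at htrace
    have h4 := mul_left_cancel₀ (X_sub_C_ne_zero c) htrace
    have h5 := congrArg (eval c) h4
    rw [eval_mul, eval_mul, htr, mul_zero] at h5
    exact (mul_eq_zero.1 h5).resolve_left hs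
  -- (3)
  have hdet : ((G₂.map (eval c)).det) ≠ 0 := by
    have : (G₂.map (eval c)).det = (G₂.det).eval c := by
      have := RingHom.map_det (evalRingHom c) G₂
      simpa using this.symm
    rw [this]
    exact h2
  have hμc : (fun i => (μ i).eval c) = 0 := by
    apply Matrix.eq_zero_of_vecMul_eq_zero hdet
    funext j
    have := key j
    simp only [Matrix.vecMul, dotProduct, eval_finsetSum, eval_mul] at this
    simpa [Matrix.vecMul, dotProduct] using this
  have hdvd : ∀ i, ∃ μ' : K[X], μ i = (X - C c) * μ' := by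
    intro i
    exact dvd_iff_isRoot.2 (congrFun hμc i)
  choose μ' hμ' using hdvd
  refine ⟨s₀, μ', hs₀, ?_⟩
  apply mul_left_cancel₀ hπ0
  have : μ = fun i => (X - C c) * μ' i := funext hμ'
  rw [this, comb_smul, hπa] at hμ
  rw [← hμ]
  ring

end Fermat.Agent.GAL.KN
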