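import Fermat.Agent.GAL.KN.Trace

/-!
# GAL / KN : the localisation `R_(c)` of an order (API of `Loc`)
-/

set_option autoImplicit false

namespace Fermat.Agent.GAL.KN

open Polynomial Fermat.Agent.GAL.KL

variable {K E : Type*} [Field K] [Field E] [Algebra K E] {n : ℕ} {τ : E} {e : Fin n → E}
  {M : Fin n → Matrix (Fin n) (Fin n) K[X]}

/-! ### N2 : API of `Loc` -/

theorem Loc.of_comb (c : K) (p : Fin n → K[X]) : Loc K τ e c (comb K τ p e) :=
  ⟨1, p, by rw [eval_one]; exact one_ne_zero, by rw [map_one, one_mul]⟩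

theorem Loc.add {c : K} {x y : E} (hx : Loc K τ e c x) (hy : Loc K τ e c y) :
    Loc K τ e c (x + y) := by
  obtain ⟨s, p, hs, hp⟩ := hx
  obtain ⟨s', p', hs', hp'⟩ := hy
  refine ⟨s * s', (fun i => s' * p i) + (fun i => s * p' i), ?_, ?_⟩
  · rw [eval_mul]; exact mul_ne_zero hs hs'
  · rw [comb_add, comb_smul, comb_smul, ← hp, ← hp', map_mul]
    ring

theorem Loc.mul (O : IsOrder K τ e M) {c : K} {x y : E} (hx : Loc K τ e c x)
    (hy : Loc K τ e c y) : Loc K τ e c (x * y) := by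
  obtain ⟨s, p, hs, hp⟩ := hx
  obtain ⟨s', p', hs', hp'⟩ := hy
  refine ⟨s * s', Matrix.vecMul p' (mulC M p), ?_, ?_⟩
  · rw [eval_mul]; exact mul_ne_zero hs hs'
  · rw [← O.comb_mul_comb, ← hp, ← hp', map_mul]
    ring

theorem Loc.aeval_mul {c : K} (g : K[X]) {x : E} (hx : Loc K τ e c x) :
    Loc K τ e c (aeval τ g * x) := by
  obtain ⟨s, p, hs, hp⟩ := hx
  refine ⟨s, fun i => g * p i, hs, ?_⟩
  rw [comb_smul, ← hp]
  ring

theorem Loc.pow (O : IsOrder K τ e M) {c : K} {x : E} (hx : Loc K τ e c x) (m : ℕ) :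
    Loc K τ e c (x ^ m) := by
  induction m with
  | zero =>
    obtain ⟨p, hp⟩ := O.one
    rw [pow_zero, hp]
    exact Loc.of_comb c p
  | succ m ih =>
    rw [pow_succ]
    exact Loc.mul O ih hx

theorem Loc.of_aeval_mul (O : IsOrder K τ e M) {c : K} (g : K[X]) (hg : g.eval c ≠ 0) {x : E}
    (hx : Loc K τ e c (aeval τ g * x)) : Loc K τ e c x := by
  obtain ⟨s, p, hs, hp⟩ := hx
  refine ⟨s * g, p, ?_, ?_⟩
  · rw [eval_mul]; exact mul_ne_zero hs hg
  · rw [← hp, map_mul, mul_assoc]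

end Fermat.Agent.GAL.KN
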