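import Fermat.Agent.GAL.KN.LocMul

/-!
# GAL / KN : integral elements are local sections; local-global
-/

set_option autoImplicit false

namespace Fermat.Agent.GAL.KN

open Polynomial Fermat.Agent.GAL.KL

variable {K E : Type*} [Field K] [Field E] [Algebra K E] {n : ℕ} {τ : E} {e : Fin n → E}
  {M : Fin n → Matrix (Fin n) (Fin n) K[X]}

/-! ### N5 : integral elements are local sections; local-global

`exists_bounded_den`: `y ^ m + ∑_{i<m} a_i(τ) y^i = 0` and `d(τ) y ∈ R` (`hyF`), so every `y ^ m'` is a `K[τ]`-combination of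
`1, …, y^(m-1)` and `g = d ^ m` works.
`loc_of_isInt`: write `g = (X - c)^a g₀`, `g₀(c) ≠ 0`; so `Loc (π^a y^m')` for all `m'`.  Show `Loc (π^b y) → Loc y` by induction on `b`
with `loc_of_mul` applied to `π^b y`.
`mem_of_forall_loc`: `{s | s(τ) y ∈ R}` is an ideal of `K[X]`, generated by `g`; `g` has no root, so it is a unit. -/

theorem LocInt_comb_zero : comb K τ (0 : Fin n → K[X]) e = 0 := by
  simp [comb]

theorem LocInt_sum_mem {ι : Type*} (s : Finset ι) (x : ι → E)
    (h : ∀ i ∈ s, ∃ p : Fin n → K[X], x i = comb K τ p e) :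
    ∃ p : Fin n → K[X], ∑ i ∈ s, x i = comb K τ p e := by
  classical
  induction s using Finset.induction_on with
  | empty => exact ⟨0, by rw [Finset.sum_empty, LocInt_comb_zero]⟩
  | insert a s ha ih =>
    obtain ⟨p, hp⟩ := ih fun i hi => h i (Finset.mem_insert_of_mem hi)
    obtain ⟨q, hq⟩ := h a (Finset.mem_insert_self a s)
    exact ⟨q + p, by rw [Finset.sum_insert ha, hp, hq, comb_add]⟩

theorem exists_bounded_den (O : IsOrder K τ e M) (y : E) (hy : IsInt K τ y)
    (hyF : ∃ (d : K[X]) (p : Fin n → K[X]), d ≠ 0 ∧ aeval τ d * y = comb K τ p e) :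
    ∃ g : K[X], g ≠ 0 ∧ ∀ m : ℕ, ∃ p : Fin n → K[X], aeval τ g * y ^ m = comb K τ p e := by
  classical
  obtain ⟨d, p, hd, hdp⟩ := hyF
  obtain ⟨pp, hmonic, hroot⟩ := hy
  set f : K[X] →+* E := ((aeval τ : K[X] →ₐ[K] E) : K[X] →+* E) with hf
  have hpp1 : pp ≠ 1 := by
    rintro rfl
    rw [eval₂_one] at hroot
    exact one_ne_zero hroot
  set r := pp.natDegree with hr
  refine ⟨d ^ r, pow_ne_zero _ hd, fun m => ?_⟩
  -- small powers
  have hsmall : ∀ i ∈ Finset.range r, ∃ q : Fin n → K[X], aeval τ (d ^ r) * y ^ i = comb K τ q e := by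
    intro i hi
    have hi' : i ≤ r := (Finset.mem_range.1 hi).le
    obtain ⟨q, hq, -⟩ := O.exists_pow p i
    refine ⟨fun l => d ^ (r - i) * q l, ?_⟩
    rw [comb_smul, ← hq, ← hdp, mul_pow, ← mul_assoc, ← map_pow, ← map_mul, ← pow_add,
      Nat.sub_add_cancel hi']
  set R := (X ^ m : K[X][X]) %ₘ pp with hR
  have h1 : y ^ m = ∑ i ∈ Finset.range r, f (R.coeff i) * y ^ i := by
    have h2 : eval₂ f y R = eval₂ f y (X ^ m) := eval₂_modByMonic_eq_self_of_root hroot
    rw [eval₂_pow, eval₂_X] at h2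
    rw [← h2]
    exact eval₂_eq_sum_range' f (natDegree_modByMonic_lt _ hmonic hpp1) y
  rw [h1, Finset.mul_sum]
  refine LocInt_sum_mem _ _ fun i hi => ?_
  obtain ⟨q, hq⟩ := hsmall i hi
  refine ⟨fun l => R.coeff i * q l, ?_⟩
  rw [comb_smul, ← hq]
  show aeval τ (d ^ r) * (aeval τ (R.coeff i) * y ^ i) = _
  ring

theorem loc_of_isInt (O : IsOrder K τ e M) {c : K} (hC : Cert K τ e M c)
    (y : E) (hy : IsInt K τ y)
    (hyF : ∃ (d : K[X]) (p : Fin n → K[X]), d ≠ 0 ∧ aeval τ d * y = comb K τ p e) :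
    Loc K τ e c y := by
  classical
  obtain ⟨Q, G₂, N, h1, h2, h3⟩ := hC
  obtain ⟨g, hg0, hg⟩ := exists_bounded_den O y hy hyF
  obtain ⟨g₀, hgg₀, hndvd⟩ := exists_eq_pow_rootMultiplicity_mul_and_not_dvd g hg0 c
  set a := rootMultiplicity c g with ha
  have hg₀c : g₀.eval c ≠ 0 := fun h => hndvd (dvd_iff_isRoot.2 h)
  have hπ : τ - algebraMap K E c = aeval τ (X - C c) := by simp
  have hBD : ∀ m : ℕ, Loc K τ e c ((τ - algebraMap K E c) ^ a * y ^ m) := by
    intro m
    obtain ⟨p, hp⟩ := hg m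
    refine ⟨g₀, p, hg₀c, ?_⟩
    rw [← hp, hgg₀, map_mul, map_pow, ← hπ]
    ring
  have key : ∀ b : ℕ, Loc K τ e c ((τ - algebraMap K E c) ^ b * y) → Loc K τ e c y := by
    intro b
    induction b with
    | zero =>
      intro h
      simpa using h
    | succ b ih =>
      intro h
      apply ih
      refine loc_of_mul O h1 h2 h3 _ a ?_ ?_
      · intro m
        have h4 := Loc.aeval_mul ((X - C c) ^ (b * m)) (hBD m)
        rw [map_pow, ← hπ] at h4
        have h5 : (τ - algebraMap K E c) ^ a * ((τ - algebraMap K E c) ^ b * y) ^ m =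
            (τ - algebraMap K E c) ^ (b * m) * ((τ - algebraMap K E c) ^ a * y ^ m) := by
          rw [mul_pow, ← pow_mul]
          ring
        rw [h5]
        exact h4
      · rw [← mul_assoc, ← pow_succ']
        exact h
  apply key a
  have := hBD 1
  rwa [pow_one] at this

theorem mem_of_forall_loc [IsAlgClosed K] (O : IsOrder K τ e M) (y : E)
    (h : ∀ c : K, Loc K τ e c y) : ∃ p : Fin n → K[X], y = comb K τ p e := by
  classical
  let I : Ideal K[X] :=
    { carrier := {s | ∃ p : Fin n → K[X], aeval τ s * y = comb K τ p e}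
      add_mem' := by
        rintro s s' ⟨p, hp⟩ ⟨p', hp'⟩
        exact ⟨p + p', by rw [map_add, add_mul, hp, hp', comb_add]⟩
      zero_mem' := ⟨0, by rw [map_zero, zero_mul, LocInt_comb_zero]⟩
      smul_mem' := by
        rintro r s ⟨p, hp⟩
        exact ⟨fun i => r * p i, by rw [comb_smul, ← hp, smul_eq_mul, map_mul, mul_assoc]⟩ }
  set g := Submodule.IsPrincipal.generator I with hg
  have hroot : ∀ c : K, g.eval c ≠ 0 := by
    intro c hc
    obtain ⟨s, p, hs, hsp⟩ := h c
    have hsI : s ∈ I := ⟨p, hsp⟩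
    obtain ⟨u, hu⟩ := (Submodule.IsPrincipal.mem_iff_generator_dvd I).1 hsI
    apply hs
    rw [hu, eval_mul, ← hg, hc, zero_mul]
  have hdeg : g.degree = 0 := by
    by_contra hdeg
    obtain ⟨x, hx⟩ := IsAlgClosed.exists_root g hdeg
    exact hroot x hx
  have hunit : IsUnit g := by
    rw [eq_C_of_degree_eq_zero hdeg]
    have h0 : g.coeff 0 ≠ 0 := by
      intro h0
      have h1 := eq_C_of_degree_eq_zero hdeg
      rw [h0, map_zero] at h1
      rw [h1, degree_zero] at hdeg
      exact absurd hdeg (by simp)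
    exact (isUnit_iff_ne_zero.2 h0).map C
  have h1 : (1 : K[X]) ∈ I := by
    have hgI : g ∈ I := Submodule.IsPrincipal.generator_mem I
    have := I.eq_top_of_isUnit_mem hgI hunit
    rw [this]
    trivial
  obtain ⟨p, hp⟩ := h1
  exact ⟨p, by rw [← hp, map_one, one_mul]⟩

end Fermat.Agent.GAL.KN
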