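import Fermat.Agent.GAL.KN.Idealizer

/-!
# GAL / KN : removing one factor `π`
-/

set_option autoImplicit false

namespace Fermat.Agent.GAL.KN

open Polynomial Fermat.Agent.GAL.KL

variable {K E : Type*} [Field K] [Field E] [Algebra K E] {n : ℕ} {τ : E} {e : Fin n → E}
  {M : Fin n → Matrix (Fin n) (Fin n) K[X]}

theorem locMul_one (O : IsOrder K τ e M) (c : K) : Loc K τ e c (1 : E) := by
  obtain ⟨p, hp⟩ := O.one
  rw [hp]
  exact Loc.of_comb c p

theorem locMul_prod (O : IsOrder K τ e M) (c : K) {ι : Type*} (s : Finset ι) (x : ι → E)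
    (hx : ∀ i ∈ s, Loc K τ e c (x i)) : Loc K τ e c (∏ i ∈ s, x i) := by
  classical
  induction s using Finset.induction_on with
  | empty => simpa using locMul_one O c
  | insert i s hi ih =>
    rw [Finset.prod_insert hi]
    exact Loc.mul O (hx i (Finset.mem_insert_self i s))
      (ih fun j hj => hx j (Finset.mem_insert_of_mem hj))

/-- the inductive claim of N4. -/
theorem loc_of_forall_prod (O : IsOrder K τ e M) {c : K} {Q G₂ : Matrix (Fin n) (Fin n) K[X]}
    {N : ℕ} (h1 : gram M * Q.transpose = (X - C c) • G₂) (h2 : (G₂.det).eval c ≠ 0)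
    (h3 : ∀ j, ∃ p : Fin n → K[X],
      (comb K τ (Q j) e) ^ N = (τ - algebraMap K E c) * comb K τ p e) (a : ℕ) (d : ℕ) :
    ∀ y : E, (∀ m : ℕ, Loc K τ e c ((τ - algebraMap K E c) ^ a * y ^ m)) →
      Loc K τ e c ((τ - algebraMap K E c) * y) →
      (∀ f : Fin d → Fin n, Loc K τ e c ((∏ i, comb K τ (Q (f i)) e) * y)) → Loc K τ e c y := by
  induction d with
  | zero =>
    intro y _ _ H
    simpa using H Fin.elim0
  | succ d ih =>
    intro y hBD hπ H
    refine ih y hBD hπ fun g => ?_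
    have hP : Loc K τ e c (∏ i, comb K τ (Q (g i)) e) :=
      locMul_prod O c _ _ fun i _ => Loc.of_comb c _
    refine idealizer O h1 h2 h3 _ a (fun m => ?_) ?_ fun j => ?_
    · have : (τ - algebraMap K E c) ^ a * ((∏ i, comb K τ (Q (g i)) e) * y) ^ m =
          (∏ i, comb K τ (Q (g i)) e) ^ m * ((τ - algebraMap K E c) ^ a * y ^ m) := by
        rw [mul_pow]; ring
      rw [this]
      exact Loc.mul O (Loc.pow O hP m) (hBD m)
    · have : (τ - algebraMap K E c) * ((∏ i, comb K τ (Q (g i)) e) * y) =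
          (∏ i, comb K τ (Q (g i)) e) * ((τ - algebraMap K E c) * y) := by ring
      rw [this]
      exact Loc.mul O hP hπ
    · have := H (Fin.cons j g)
      rw [Fin.prod_univ_succ] at this
      simp only [Fin.cons_zero, Fin.cons_succ] at this
      rwa [mul_assoc] at this

/-! ### N4 : removing one factor `π`

PROOF.  CLAIM: for all `d` and all `y` with `hBD`, `hπ`: if `Loc ((∏ i, ε (f i)) * y)` for all `f : Fin d → Fin n` then `Loc y`.
Induction on `d`.  `d = 0`: trivial.  `d + 1`: by the induction hypothesis it is enough to show `Loc y''`, `y'' = (∏ i, ε (g i)) * y`, for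
every `g : Fin d → Fin n`; apply `idealizer` to `y''` (`π^a y''^m = (∏ ε)^m (π^a y^m)`, `π y'' = (∏ ε)(π y)`,
`ε_j y'' = (∏ i, ε (Fin.cons j g i)) * y`).
Finally for `d = n * N` every `f : Fin d → Fin n` takes some value `j` at least `N` times (pigeonhole;
`n > 0` by `O.n_pos`), so `∏ i, ε (f i) = ε_j ^ N * (element of R) = π * (element of R)` and `(∏ ..) * y = (element of R) * (π y)`. -/
theorem loc_of_mul (O : IsOrder K τ e M) {c : K} {Q G₂ : Matrix (Fin n) (Fin n) K[X]} {N : ℕ}
    (h1 : gram M * Q.transpose = (X - C c) • G₂) (h2 : (G₂.det).eval c ≠ 0)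
    (h3 : ∀ j, ∃ p : Fin n → K[X],
      (comb K τ (Q j) e) ^ N = (τ - algebraMap K E c) * comb K τ p e)
    (y : E) (a : ℕ) (hBD : ∀ m : ℕ, Loc K τ e c ((τ - algebraMap K E c) ^ a * y ^ m))
    (hπ : Loc K τ e c ((τ - algebraMap K E c) * y)) : Loc K τ e c y := by
  classical
  refine loc_of_forall_prod O h1 h2 h3 a (n * N) y hBD hπ fun f => ?_
  have : Nonempty (Fin n) := ⟨⟨0, O.n_pos⟩⟩
  obtain ⟨j, hj⟩ := Fintype.exists_le_card_fiber_of_mul_le_card f (n := N) (by simp)
  obtain ⟨p, hp⟩ := h3 j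
  obtain ⟨r, hr⟩ := Nat.exists_eq_add_of_le hj
  have hsplit : (∏ i, comb K τ (Q (f i)) e) =
      (comb K τ (Q j) e) ^ N * ((comb K τ (Q j) e) ^ r *
        ∏ i ∈ Finset.univ.filter (fun i => ¬ f i = j), comb K τ (Q (f i)) e) := by
    rw [← Finset.prod_filter_mul_prod_filter_not Finset.univ (fun i => f i = j), ← mul_assoc,
      ← pow_add, ← hr, ← Finset.prod_const]
    congr 1
    refine Finset.prod_congr rfl fun i hi => ?_
    rw [(Finset.mem_filter.mp hi).2]
  have hR : Loc K τ e c ((comb K τ (Q j) e) ^ r *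
      ∏ i ∈ Finset.univ.filter (fun i => ¬ f i = j), comb K τ (Q (f i)) e) :=
    Loc.mul O (Loc.pow O (Loc.of_comb c _) r) (locMul_prod O c _ _ fun i _ => Loc.of_comb c _)
  rw [hsplit, hp]
  have hre : ∀ R : E, (τ - algebraMap K E c) * comb K τ p e * R * y =
      comb K τ p e * R * ((τ - algebraMap K E c) * y) := fun R => by ring
  rw [hre]
  exact Loc.mul O (Loc.mul O (Loc.of_comb c p) hR) hπ

end Fermat.Agent.GAL.KN
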