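import Fermat.Agent.GAL.KN.LocInt

/-!
# GAL / KN : a Pohst–Zassenhaus type criterion (any characteristic)

`R = {comb p e}` an order of `E` over `K[τ]`, `π = τ - c`, `R_(c) = {x | Loc K τ e c x}`.
If `R` has a certificate `Cert` at every `c : K` (`K` algebraically closed) then `R` is integrally closed in its fraction field
(`E` may be bigger than the fraction field of `R`: hypothesis `hyF`).
-/

set_option autoImplicit false

namespace Fermat.Agent.GAL.KN

open Polynomial Fermat.Agent.GAL.KL

variable {K E : Type*} [Field K] [Field E] [Algebra K E] {n : ℕ} {τ : E} {e : Fin n → E}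
  {M : Fin n → Matrix (Fin n) (Fin n) K[X]}

/-- **the criterion.** -/
theorem normal_of_cert [IsAlgClosed K] (O : IsOrder K τ e M)
    (hC : ∀ c : K, Cert K τ e M c) (y : E) (hy : IsInt K τ y)
    (hyF : ∃ (d : K[X]) (p : Fin n → K[X]), d ≠ 0 ∧ aeval τ d * y = comb K τ p e) :
    ∃ p : Fin n → K[X], y = comb K τ p e :=
  mem_of_forall_loc O y fun _ => loc_of_isInt O (hC _) y hy hyF


end Fermat.Agent.GAL.KN
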