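import Fermat.Agent.GAL.KN.Trace

/-!
# GAL / KN : char 0: the radical of the trace form
-/

set_option autoImplicit false

namespace Fermat.Agent.GAL.KN

open Polynomial Fermat.Agent.GAL.KL

/-! ### pure linear algebra: vanishing traces of powers imply nilpotency (char 0) -/

section LinAlg

variable {L : Type*} [Field L] {n : ℕ}

theorem n6_trace_aeval_mul_X (A : Matrix (Fin n) (Fin n) L) (h : ∀ m : ℕ, (A ^ (m + 1)).trace = 0)
    (g : L[X]) : (aeval A (g * X)).trace = 0 := by
  induction g using Polynomial.induction_on' with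
  | add p q hp hq => rw [add_mul, map_add, Matrix.trace_add, hp, hq, add_zero]
  | monomial k c =>
    rw [map_mul, aeval_X, aeval_monomial, mul_assoc, ← pow_succ, Algebra.algebraMap_eq_smul_one,
      smul_mul_assoc, one_mul, Matrix.trace_smul, h, smul_zero]

theorem n6_eq_zero_of_idempotent [CharZero L] (P : Matrix (Fin n) (Fin n) L) (hP : P * P = P)
    (htr : P.trace = 0) : P = 0 := by
  have he : IsIdempotentElem (Matrix.toLin' P) := by
    show Matrix.toLin' P * Matrix.toLin' P = Matrix.toLin' P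
    rw [Module.End.mul_eq_comp, ← Matrix.toLin'_mul, hP]
  have h0 : Matrix.toLin' P = 0 := by
    apply LinearMap.IsIdempotentElem.eq_zero_of_trace_eq_zero he
    rw [Matrix.trace_toLin'_eq, htr]
  exact Matrix.toLin'.injective (by rw [h0, map_zero])

/-- a matrix over a field of characteristic zero all of whose positive powers have trace zero is
nilpotent. -/
theorem n6_pow_eq_zero [CharZero L] (A : Matrix (Fin n) (Fin n) L)
    (h : ∀ m : ℕ, (A ^ (m + 1)).trace = 0) : A ^ n = 0 := by
  have hχ0 : A.charpoly ≠ 0 := A.charpoly_monic.ne_zero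
  obtain ⟨g, hg, hnd⟩ := exists_eq_pow_rootMultiplicity_mul_and_not_dvd A.charpoly hχ0 0
  obtain ⟨a, ha⟩ : ∃ a, a = rootMultiplicity 0 A.charpoly := ⟨_, rfl⟩
  rw [← ha, C_0, sub_zero] at hg
  rw [C_0, sub_zero] at hnd
  have hχA : aeval A A.charpoly = 0 := Matrix.aeval_self_charpoly A
  have hcop : IsCoprime (X ^ (a + 1) : L[X]) g :=
    IsCoprime.pow_left ((irreducible_X.coprime_iff_not_dvd).2 hnd)
  obtain ⟨u, w, huw⟩ := hcop
  obtain ⟨P, hPdef⟩ : ∃ P, P = aeval A (u * X ^ (a + 1)) := ⟨_, rfl⟩
  have htr : P.trace = 0 := by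
    rw [hPdef, pow_succ, ← mul_assoc]
    exact n6_trace_aeval_mul_X A h _
  have hone : P + aeval A (w * g) = 1 := by
    rw [hPdef, ← map_add, huw, map_one]
  have hPw : P * aeval A (w * g) = 0 := by
    have e : u * X ^ (a + 1) * (w * g) = u * w * X * A.charpoly := by
      rw [hg]; ring
    rw [hPdef, ← map_mul, e, map_mul, hχA, mul_zero]
  have hidem : P * P = P := by
    have : P * (P + aeval A (w * g)) = P := by rw [hone, mul_one]
    rwa [mul_add, hPw, add_zero] at this
  have hP0 : P = 0 := n6_eq_zero_of_idempotent P hidem htr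
  rw [hP0, zero_add] at hone
  have hAa : A ^ a = 0 := by
    have e : (X ^ a : L[X]) * (w * g) = w * A.charpoly := by
      rw [hg]; ring
    calc A ^ a = A ^ a * aeval A (w * g) := by rw [hone, mul_one]
      _ = aeval A ((X ^ a : L[X]) * (w * g)) := by
        rw [map_mul (aeval A) (X ^ a), map_pow, aeval_X]
      _ = 0 := by rw [e, map_mul, hχA, mul_zero]
  have han : a ≤ n := by
    have hg0 : g ≠ 0 := by
      rintro rfl
      exact hχ0 (by rw [hg, mul_zero])
    have h1 : A.charpoly.natDegree = n := by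
      rw [Matrix.charpoly_natDegree_eq_dim, Fintype.card_fin]
    rw [hg, natDegree_mul (pow_ne_zero _ X_ne_zero) hg0, natDegree_X_pow] at h1
    omega
  obtain ⟨b, rfl⟩ := Nat.exists_eq_add_of_le han
  rw [pow_add, hAa, zero_mul]

end LinAlg

variable {L F Γ₀ : Type*} [Field L] [Field F] [Algebra L F] [LinearOrderedCommGroupWithZero Γ₀]
  {v : Valuation F Γ₀} {t : F} {n : ℕ} {e : Fin n → F} {M : Fin n → Matrix (Fin n) (Fin n) L[X]}

/-! ### N6 : in characteristic zero the radical of the trace form mod `t - c` consists of nilpotent elements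

PROOF.  `A = (mulC M x).map (eval c) ∈ Mat_n(L)`.  For every polynomial `g : L[X]` the matrix `g(A)` is `(mulC M y).map (eval c)` for
some `y` (`IsOrder.exists_pow`, linearity), so `trace (A * g(A)) = eval c (x ⬝ᵥ G *ᵥ y) = 0` by `hx` (the Gram matrix is symmetric, or
use `trC_vecMul` in the right order).
LEMMA (pure linear algebra, char 0): `A ∈ Mat_n(L)` with `trace (A * g(A)) = 0` for all `g` is nilpotent.
[minpoly `= X^a h`, `h(0) ≠ 0`, Bezout `u X^a + w h = 1`, `P = (u X^a)(A)` is idempotent, a multiple of `A` if `a ≥ 1`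
(if `a = 0`, `A` is invertible with `A⁻¹` a polynomial in `A` and `trace 1 = n ≠ 0`);
`trace P = rank P` (`LinearMap.IsProj.trace`), so `P = 0`, `h(A)` is invertible, `A^a = 0`.]
Then `A ^ n = 0`, so `X - c` divides all entries of `mulC M x ^ n = mulC M r`, `comb x e ^ n = comb r e`; `IsOrder.dvd_of_dvd_mulC`. -/
theorem rad [IsAlgClosed L] [CharZero L] (O : IsOrder L t e M) (c : L) (x : Fin n → L[X])
    (hx : ∀ i, ((gram M).mulVec x i).eval c = 0) :
    ∃ p : Fin n → L[X], (comb L t x e) ^ n = (t - algebraMap L F c) * comb L t p e := by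
  -- traces of the powers
  have htr : ∀ m : ℕ, (((evalRingHom c).mapMatrix (mulC M x)) ^ (m + 1)).trace = 0 := by
    intro m
    obtain ⟨r, -, hr⟩ := O.exists_pow x m
    have h1 : mulC M x ^ (m + 1) = mulC M (Matrix.vecMul x (mulC M r)) := by
      rw [O.mulC_vecMul, hr, pow_succ']
    rw [← map_pow, h1, RingHom.mapMatrix_apply, ← AddMonoidHom.map_trace (evalRingHom c),
      ← trC_eq_trace, trC_vecMul, dotProduct, map_sum]
    refine Finset.sum_eq_zero fun i _ => ?_
    rw [map_mul, coe_evalRingHom, hx i, mul_zero]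
  have hnil := n6_pow_eq_zero _ htr
  obtain ⟨r, hr1, hr2⟩ := O.exists_pow x n
  rw [← map_pow, ← hr2] at hnil
  have hdvd : ∀ i j, (X - C c) ∣ mulC M r i j := by
    intro i j
    rw [dvd_iff_isRoot]
    exact congrFun (congrFun hnil i) j
  have hdvd' := O.dvd_of_dvd_mulC (X - C c) r hdvd
  choose p hp using hdvd'
  refine ⟨p, ?_⟩
  rw [hr1, comb, comb, Finset.mul_sum]
  refine Finset.sum_congr rfl fun i _ => ?_
  rw [hp i, map_mul, map_sub, aeval_X, aeval_C, mul_assoc]

end Fermat.Agent.GAL.KN
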