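import Fermat.Agent.GAL.KN.Defs
import Fermat.Agent.GAL.KL.Basic

/-!
# GAL / KN / N11 : API of `RedData`
-/

set_option autoImplicit false

namespace Fermat.Agent.GAL.KN

open Polynomial Fermat.Agent.GAL.KL

variable {L F Γ₀ : Type*} [Field L] [Field F] [Algebra L F] [LinearOrderedCommGroupWithZero Γ₀]
  {v : Valuation F Γ₀} {t : F} {k E : Type*} [Field k] [Field E] [Algebra k E]
  (D : RedData L v k E)

namespace RedData

theorem red_of_le {x : F} (hx : v x ≤ 1) : D.red x = D.ρ ⟨x, hx⟩ := by
  unfold RedData.red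
  exact dif_pos hx

theorem red_zero : D.red 0 = 0 := by
  rw [D.red_of_le (x := 0) (by simp)]
  exact map_zero D.ρ

theorem red_one : D.red 1 = 1 := by
  rw [D.red_of_le (x := 1) (by simp)]
  exact map_one D.ρ

theorem red_add {x y : F} (hx : v x ≤ 1) (hy : v y ≤ 1) : D.red (x + y) = D.red x + D.red y := by
  rw [D.red_of_le hx, D.red_of_le hy, D.red_of_le (v.map_add_le hx hy), ← map_add]
  rfl

theorem red_sub {x y : F} (hx : v x ≤ 1) (hy : v y ≤ 1) : D.red (x - y) = D.red x - D.red y := by
  rw [D.red_of_le hx, D.red_of_le hy, D.red_of_le (v.map_sub_le hx hy), ← map_sub]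
  rfl

theorem red_mul {x y : F} (hx : v x ≤ 1) (hy : v y ≤ 1) : D.red (x * y) = D.red x * D.red y := by
  have hxy : v (x * y) ≤ 1 := by rw [map_mul]; exact mul_le_one' hx hy
  rw [D.red_of_le hx, D.red_of_le hy, D.red_of_le hxy, ← map_mul]
  rfl

theorem red_pow {x : F} (hx : v x ≤ 1) (m : ℕ) : D.red (x ^ m) = D.red x ^ m := by
  have hxm : v (x ^ m) ≤ 1 := by rw [map_pow]; exact pow_le_one' hx m
  rw [D.red_of_le hx, D.red_of_le hxm, ← map_pow]
  rfl

theorem red_sum {ι : Type*} (s : Finset ι) (f : ι → F) (hf : ∀ i ∈ s, v (f i) ≤ 1) :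
    D.red (∑ i ∈ s, f i) = ∑ i ∈ s, D.red (f i) := by
  classical
  induction s using Finset.induction_on with
  | empty => simpa using D.red_zero
  | insert a s ha ih =>
    rw [Finset.sum_insert ha, Finset.sum_insert ha,
      D.red_add (hf a (Finset.mem_insert_self a s))
        (v.map_sum_le fun i hi => hf i (Finset.mem_insert_of_mem hi)),
      ih fun i hi => hf i (Finset.mem_insert_of_mem hi)]

theorem red_eq_zero_iff {x : F} (hx : v x ≤ 1) : D.red x = 0 ↔ v x < 1 := by
  rw [D.red_of_le hx, D.ρ_eq_zero]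

theorem red_eq_red_iff {x y : F} (hx : v x ≤ 1) (hy : v y ≤ 1) :
    D.red x = D.red y ↔ v (x - y) < 1 := by
  rw [← sub_eq_zero, ← D.red_sub hx hy, D.red_eq_zero_iff (v.map_sub_le hx hy)]

theorem red_algebraMap (a : D.A) : D.red (algebraMap L F (a : L)) = algebraMap k E (D.res a) := by
  rw [D.red_of_le ((D.mem_A a).1 a.2)]
  exact D.ρ_alg a _

theorem res_eq_zero_iff (a : D.A) : D.res a = 0 ↔ v (algebraMap L F (a : L)) < 1 := by
  rw [← D.red_eq_zero_iff ((D.mem_A a).1 a.2), D.red_algebraMap,
    map_eq_zero (algebraMap k E)]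

theorem isUnit_iff (a : D.A) : IsUnit a ↔ v (algebraMap L F (a : L)) = 1 := by
  constructor
  · intro ha
    obtain ⟨b, hb⟩ := ha.exists_right_inv
    have h1 : v (algebraMap L F (a : L)) * v (algebraMap L F (b : L)) = 1 := by
      rw [← map_mul, ← map_mul]
      have : (a : L) * (b : L) = 1 := congrArg Subtype.val hb
      rw [this, map_one, map_one]
    have ha1 := (D.mem_A a).1 a.2
    have hb1 := (D.mem_A b).1 b.2
    refine le_antisymm ha1 ?_
    calc (1 : Γ₀) = v (algebraMap L F (a : L)) * v (algebraMap L F (b : L)) := h1.symm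
      _ ≤ v (algebraMap L F (a : L)) * 1 := mul_le_mul_right hb1 _
      _ = v (algebraMap L F (a : L)) := mul_one _
  · intro ha
    have ha0 : (a : L) ≠ 0 := by
      intro h0
      rw [h0, map_zero, map_zero] at ha
      exact zero_ne_one ha
    have hinv : (a : L)⁻¹ ∈ D.A := by
      rw [D.mem_A, map_inv₀, map_inv₀, ha, inv_one]
    exact IsUnit.of_mul_eq_one ⟨_, hinv⟩ (Subtype.ext (mul_inv_cancel₀ ha0))

theorem up_injective : Function.Injective D.up :=
  Polynomial.map_injective _ Subtype.val_injective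

theorem dn_surjective : Function.Surjective D.dn :=
  Polynomial.map_surjective _ D.res_surj

theorem up_C (a : D.A) : D.up (C a) = C (a : L) := Polynomial.map_C _

theorem up_X : D.up X = X := Polynomial.map_X _

theorem dn_C (a : D.A) : D.dn (C a) = C (D.res a) := Polynomial.map_C _

theorem dn_X : D.dn X = X := Polynomial.map_X _

theorem eval_up (p : D.A[X]) (c : D.A) : (D.up p).eval (c : L) = ((p.eval c : D.A) : L) := by
  show (p.map D.A.subtype).eval (c : L) = _
  rw [eval_map]
  exact eval₂_at_apply D.A.subtype c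

theorem eval_dn (p : D.A[X]) (c : D.A) : (D.dn p).eval (D.res c) = D.res (p.eval c) := by
  show (p.map D.res).eval (D.res c) = _
  rw [eval_map, eval₂_at_apply]

theorem coeff_up (p : D.A[X]) (i : ℕ) : (D.up p).coeff i = ((p.coeff i : D.A) : L) :=
  Polynomial.coeff_map _ _

theorem coeff_dn (p : D.A[X]) (i : ℕ) : (D.dn p).coeff i = D.res (p.coeff i) :=
  Polynomial.coeff_map _ _

variable {D}

theorem v_aeval_up_le (hG : Gauss L v t) (p : D.A[X]) : v (aeval t (D.up p)) ≤ 1 := by
  rw [hG]
  intro i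
  rw [D.coeff_up]
  exact (D.mem_A _).1 (p.coeff i).2

theorem exists_up (hG : Gauss L v t) (p : L[X]) (hp : v (aeval t p) ≤ 1) :
    ∃ p' : D.A[X], D.up p' = p := by
  have h1 : p ∈ Polynomial.lifts D.A.subtype := by
    rw [Polynomial.lifts_iff_coeff_lifts]
    intro i
    exact ⟨⟨p.coeff i, (D.mem_A _).2 ((hG p 1).1 hp i)⟩, rfl⟩
  exact (Polynomial.mem_lifts p).1 h1

theorem dn_eq_zero_iff (hG : Gauss L v t) (p : D.A[X]) :
    D.dn p = 0 ↔ v (aeval t (D.up p)) < 1 := by
  rw [hG.lt_iff _ _ one_ne_zero, Polynomial.ext_iff]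
  refine forall_congr' fun i => ?_
  rw [D.coeff_dn, D.coeff_up, coeff_zero, D.res_eq_zero_iff]

theorem red_aeval (hG : Gauss L v t) (p : D.A[X]) :
    D.red (aeval t (D.up p)) = aeval (D.red t) (D.dn p) := by
  induction p using Polynomial.induction_on' with
  | add p q hp hq =>
    rw [map_add, map_add, D.red_add (v_aeval_up_le hG p) (v_aeval_up_le hG q), hp, hq, map_add,
      map_add]
  | monomial n a =>
    have h1 : D.up (monomial n a) = monomial n (a : L) := Polynomial.map_monomial _
    have h2 : D.dn (monomial n a) = monomial n (D.res a) := Polynomial.map_monomial _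
    have ht : v t ≤ 1 := hG.v_t.le
    rw [h1, h2, aeval_monomial, aeval_monomial,
      D.red_mul ((D.mem_A a).1 a.2) (by rw [map_pow]; exact pow_le_one' ht n), D.red_pow ht,
      D.red_algebraMap]

theorem v_comb_up_le (hG : Gauss L v t) {n : ℕ} (e : Fin n → F) (he : ∀ i, v (e i) ≤ 1)
    (p : Fin n → D.A[X]) : v (comb L t (fun i => D.up (p i)) e) ≤ 1 := by
  unfold comb
  refine v.map_sum_le fun i _ => ?_
  rw [map_mul]
  exact mul_le_one' (v_aeval_up_le hG (p i)) (he i)

theorem red_comb (hG : Gauss L v t) {n : ℕ} (e : Fin n → F) (he : ∀ i, v (e i) ≤ 1)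
    (p : Fin n → D.A[X]) :
    D.red (comb L t (fun i => D.up (p i)) e) =
      comb k (D.red t) (fun i => D.dn (p i)) (fun i => D.red (e i)) := by
  unfold comb
  rw [D.red_sum]
  · refine Finset.sum_congr rfl fun i _ => ?_
    rw [D.red_mul (v_aeval_up_le hG (p i)) (he i), red_aeval hG]
  · intro i _
    rw [map_mul]
    exact mul_le_one' (v_aeval_up_le hG (p i)) (he i)

/-- coordinates of an element of `O_v` in an orthonormal family are integral. -/
theorem exists_up_comb (hG : Gauss L v t) {n : ℕ} (e : Fin n → F) (hON : ON L v t e)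
    (p : Fin n → L[X]) (hp : v (comb L t p e) ≤ 1) :
    ∃ p' : Fin n → D.A[X], ∀ i, D.up (p' i) = p i := by
  have h1 := (hON p 1).1 hp
  choose p' hp' using fun i => exists_up (D := D) hG (p i) (h1 i)
  exact ⟨p', hp'⟩

/-- the residue field of an algebraically closed valued field is algebraically closed
(lift a monic polynomial to `A[X]`; its roots in `L` are integral over `A`, hence in `A`: if `v a > 1` the leading term dominates). -/
theorem isAlgClosed_res [IsAlgClosed L] (D : RedData L v k E) : IsAlgClosed k := by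
  refine IsAlgClosed.of_exists_root k fun p hpm hpi => ?_
  have hlift : p ∈ Polynomial.lifts D.res := by
    obtain ⟨P, hP⟩ := D.dn_surjective p
    exact (Polynomial.mem_lifts p).2 ⟨P, hP⟩
  obtain ⟨P, hP, hPdeg, hPm⟩ := lifts_and_natDegree_eq_and_monic hlift hpm
  have hdeg : (D.up P).degree ≠ 0 := by
    have h1 : (D.up P).natDegree = p.natDegree := by
      rw [← hPdeg]
      exact (hPm.natDegree_map D.A.subtype)
    have h2 : p.natDegree ≠ 0 := hpi.natDegree_pos.ne'
    intro h0
    apply h2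
    rw [← h1]
    exact natDegree_eq_of_degree_eq_some h0
  obtain ⟨a, ha⟩ := IsAlgClosed.exists_root (D.up P) hdeg
  set w : Valuation L Γ₀ := v.comap (algebraMap L F) with hw
  have hv : w.Integers D.A :=
    { hom_inj := Subtype.val_injective
      map_le_one := fun x => (D.mem_A _).1 x.2
      exists_of_le_one := fun {r} hr => ⟨⟨r, (D.mem_A r).2 hr⟩, rfl⟩ }
  have hint : IsIntegral D.A a := by
    refine ⟨P, hPm, ?_⟩
    rw [IsRoot.def] at ha
    have : (P.map D.A.subtype).eval a = 0 := ha
    rwa [eval_map] at this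
  have haA : a ∈ D.A := (D.mem_A a).2 (hv.mem_of_integral hint)
  refine ⟨D.res ⟨a, haA⟩, ?_⟩
  have h3 : P.eval (⟨a, haA⟩ : D.A) = 0 := by
    apply Subtype.val_injective
    rw [← D.eval_up]
    exact ha
  have h4 := D.eval_dn P ⟨a, haA⟩
  rw [h3, map_zero] at h4
  rw [← hP]
  exact h4

end RedData

end Fermat.Agent.GAL.KN
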