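import Fermat.Agent.GAL.KL.Basic

/-!
# GAL / KN / N12 : a polynomial of Gauss norm one, divided by its roots in the residue disc of `c`, is a unit at `c`
-/

set_option autoImplicit false

namespace Fermat.Agent.GAL.KN

open Polynomial Fermat.Agent.GAL.KL

variable {L F Γ₀ : Type*} [Field L] [Field F] [Algebra L F] [LinearOrderedCommGroupWithZero Γ₀]
  {v : Valuation F Γ₀} {t : F}

/-- `v (t - c') = max 1 (v c')`. -/
theorem Roots_v_sub (hG : Gauss L v t) (c' : L) :
    v (t - algebraMap L F c') = max 1 (v (algebraMap L F c')) := by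
  have h := hG (X - C c')
  have e : aeval t (X - C c' : L[X]) = t - algebraMap L F c' := by simp
  rw [e] at h
  apply le_antisymm
  · rw [h]
    intro i
    rcases i with _ | _ | i
    · simp
    · simp
    · have : (X - C c' : L[X]).coeff (i + 1 + 1) = 0 := by
        rw [coeff_sub, coeff_X, coeff_C, if_neg (by omega), if_neg (by omega), sub_zero]
      rw [this, map_zero, map_zero]
      exact zero_le
  · have h1 := (h _).1 le_rfl
    refine max_le ?_ ?_
    · simpa using h1 1
    · simpa using h1 0

/-- `v (c - c') = max 1 (v c')` if `v c ≤ 1` and `c'` is not in the residue disc of `c`. -/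
theorem Roots_v_const_sub (c c' : L) (hc : v (algebraMap L F c) ≤ 1)
    (h : 1 ≤ v (algebraMap L F (c - c'))) :
    v (algebraMap L F (c - c')) = max 1 (v (algebraMap L F c')) := by
  rw [map_sub] at h ⊢
  by_cases h1 : v (algebraMap L F c') ≤ 1
  · rw [max_eq_left h1]
    exact le_antisymm ((Valuation.map_sub _ _ _).trans (max_le hc h1)) h
  · push Not at h1
    rw [max_eq_right h1.le]
    rw [Valuation.map_sub_swap]
    exact Valuation.map_sub_eq_of_lt_left _ (lt_of_le_of_lt hc h1)

theorem eval_unit_of_roots [IsAlgClosed L] (hG : Gauss L v t) (P : L[X]) (hP : v (aeval t P) = 1)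
    (c : L) (hc : v (algebraMap L F c) ≤ 1)
    (hroots : ∀ c' : L, P.IsRoot c' → c' ≠ c → 1 ≤ v (algebraMap L F (c - c')))
    (a : ℕ) (P₁ : L[X]) (h : P = (X - C c) ^ a * P₁) (h1 : P₁.eval c ≠ 0) :
    v (algebraMap L F (P₁.eval c)) = 1 := by
  have hP₁0 : P₁ ≠ 0 := by
    rintro rfl
    simp at h1
  have hsp := IsAlgClosed.splits P₁
  -- the value of `P₁(t)`
  have e1 : v (aeval t P₁) = 1 := by
    rw [h, map_mul, map_pow, map_mul, map_pow] at hP
    have : aeval t (X - C c : L[X]) = t - algebraMap L F c := by simp
    rw [this, Roots_v_sub hG c, max_eq_left hc, one_pow, one_mul] at hP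
    exact hP
  have e2 : v (aeval t P₁) = v (algebraMap L F P₁.leadingCoeff) *
      (P₁.roots.map fun r => max 1 (v (algebraMap L F r))).prod := by
    conv_lhs => rw [hsp.eq_prod_roots]
    rw [map_mul, map_mul, aeval_C, map_multiset_prod, map_multiset_prod, Multiset.map_map,
      Multiset.map_map]
    congr 2
    refine Multiset.map_congr rfl fun r _ => ?_
    simp only [Function.comp_apply, map_sub, aeval_X, aeval_C]
    exact Roots_v_sub hG r
  have e3 : v (algebraMap L F (P₁.eval c)) = v (algebraMap L F P₁.leadingCoeff) *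
      (P₁.roots.map fun r => max 1 (v (algebraMap L F r))).prod := by
    rw [hsp.eval_eq_prod_roots, map_mul, map_mul, map_multiset_prod, map_multiset_prod,
      Multiset.map_map, Multiset.map_map]
    congr 2
    refine Multiset.map_congr rfl fun r hr => ?_
    simp only [Function.comp_apply]
    have hr' : P₁.IsRoot r := (mem_roots hP₁0).1 hr
    have hrc : r ≠ c := by
      rintro rfl
      exact h1 hr'
    have hrP : P.IsRoot r := by
      rw [h, IsRoot.def, eval_mul, hr'.eq_zero, mul_zero]
    exact Roots_v_const_sub c r hc (hroots r hrP hrc)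
  rw [e3, ← e2, e1]

end Fermat.Agent.GAL.KN
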