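import Fermat.Agent.GAL.KN.Red

/-!
# GAL / KN : integral structure constants and their reduction
-/

set_option autoImplicit false

namespace Fermat.Agent.GAL.KN

open Polynomial Fermat.Agent.GAL.KL

variable {L F Γ₀ : Type*} [Field L] [Field F] [Algebra L F] [LinearOrderedCommGroupWithZero Γ₀]
  {v : Valuation F Γ₀} {t : F} {k E : Type*} [Field k] [Field E] [Algebra k E]
  {D : RedData L v k E} {n : ℕ} {e : Fin n → F}

/-! ### N13 : integral structure constants and their reduction -/

/-- an orthonormal basis of `B_t` has structure constants in `A[X]`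
(`e i * e j ∈ B_t`, `v (e i * e j) ≤ 1`, `RedData.exists_up_comb`; `1 ∈ B_t`). -/
theorem exists_str (hG : Gauss L v t) (he : IsBasis L t e (BB L t)) (hON : ON L v t e) :
    ∃ M : Fin n → Matrix (Fin n) (Fin n) D.A[X], IsOrder L t e (fun i => (M i).map D.up) := by
  classical
  have hmem : ∀ i, IsInt L t (e i) := fun i =>
    (he.2 (e i)).mpr ⟨Pi.single i 1, by rw [comb_single, map_one, one_mul]⟩
  have h1 : ∀ i j, ∃ p' : Fin n → D.A[X], e i * e j = comb L t (fun l => D.up (p' l)) e := by
    intro i j
    obtain ⟨p, hp⟩ := (he.2 (e i * e j)).mp ((hmem i).mul (hmem j))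
    have hv : v (comb L t p e) ≤ 1 := by
      rw [← hp, map_mul, hON.v_eq_one, hON.v_eq_one, one_mul]
    obtain ⟨p', hp'⟩ := RedData.exists_up_comb (D := D) hG e hON p hv
    refine ⟨p', ?_⟩
    rw [hp]
    congr 1
    funext l
    exact (hp' l).symm
  choose M hM using h1
  refine ⟨fun i => Matrix.of fun j l => M i j l, hG.inj, he.1, ?_, (he.2 1).mp IsInt.one⟩
  intro i j
  exact hM i j

/-- the reduction of the order. (`inj`: `RedData.dn_eq_zero_iff`, lift `p`; `ind`: `ON.lt_iff`; `str`, `one`: `RedData.red_comb`;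
the coordinates of `1` are integral by `RedData.exists_up_comb`.) -/
theorem isOrder_red (hG : Gauss L v t) (hON : ON L v t e)
    (M : Fin n → Matrix (Fin n) (Fin n) D.A[X]) (O : IsOrder L t e (fun i => (M i).map D.up)) :
    IsOrder k (D.red t) (fun i => D.red (e i)) (fun i => (M i).map D.dn) := by
  have hev : ∀ i, v (e i) ≤ 1 := fun i => (hON.v_eq_one i).le
  refine ⟨?_, ?_, ?_, ?_⟩
  · intro p hp
    obtain ⟨p', rfl⟩ := D.dn_surjective p
    rw [← RedData.red_aeval hG, RedData.red_eq_zero_iff D (RedData.v_aeval_up_le hG p')] at hp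
    exact (RedData.dn_eq_zero_iff hG p').mpr hp
  · intro p hp
    choose p' hp' using fun i => D.dn_surjective (p i)
    have h1 : p = fun i => D.dn (p' i) := funext fun i => (hp' i).symm
    rw [h1, ← RedData.red_comb hG e hev,
      RedData.red_eq_zero_iff D (RedData.v_comb_up_le hG e hev p'),
      hON.lt_iff _ _ one_ne_zero] at hp
    rw [h1]
    funext i
    exact (RedData.dn_eq_zero_iff hG (p' i)).mpr (hp i)
  · intro i j
    have h1 := O.str i j
    have h2 : D.red (e i * e j) = D.red (comb L t (fun l => D.up (M i j l)) e) := by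
      rw [h1]
      rfl
    rw [RedData.red_mul D (hev i) (hev j), RedData.red_comb hG e hev] at h2
    exact h2
  · obtain ⟨p, hp⟩ := O.one
    have hv : v (comb L t p e) ≤ 1 := by rw [← hp, map_one]
    obtain ⟨p', hp'⟩ := RedData.exists_up_comb (D := D) hG e hON p hv
    refine ⟨fun i => D.dn (p' i), ?_⟩
    rw [← RedData.red_comb hG e hev, ← D.red_one, hp]
    congr 2
    funext l
    exact (hp' l).symm

end Fermat.Agent.GAL.KN
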